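import Mathlib

/-!
S56, wall W2-EC, step (B) Brauer induction, part (iv) (helper71): Artin's identity on the elements of a
finite group, in the form needed for `p`-regular elements.  Pure finite group theory.
-/

set_option autoImplicit false
set_option linter.style.haveILetI false

namespace Fermat.Agent.S56.EC

open Finset ArithmeticFunction
open scoped Classical

variable {Γ : Type} [Group Γ]

/-- `∑_{d ∣ m} μ(d) = [m = 1]`. -/
theorem artinId_sum_moebius (m : ℕ) :
    ∑ d ∈ m.divisors, (moebius d : ℤ) = if m = 1 then 1 else 0 := by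
  have h := congrArg (fun f : ArithmeticFunction ℤ => f m) moebius_mul_coe_zeta
  simp only [coe_mul_zeta_apply] at h
  rw [h, ArithmeticFunction.one_apply]

/-- In the cyclic group generated by `c` (of order `n`): `c ^ j ∈ ⟨c ^ d⟩ ↔ d ∣ j`, for `d ∣ n`. -/
theorem artinId_pow_mem_zpowers_pow (c : Γ) {d : ℕ} (hd : d ∣ orderOf c) (j : ℕ) :
    c ^ j ∈ Subgroup.zpowers (c ^ d) ↔ d ∣ j := by
  constructor
  · intro h
    obtain ⟨t, ht⟩ := Subgroup.mem_zpowers_iff.1 h
    have h1 : c ^ ((d : ℤ) * t - (j : ℤ)) = 1 := by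
      rw [zpow_sub, zpow_mul, zpow_natCast, ht, zpow_natCast, mul_inv_cancel]
    have h2 : ((orderOf c : ℕ) : ℤ) ∣ (d : ℤ) * t - (j : ℤ) := orderOf_dvd_iff_zpow_eq_one.2 h1
    have h3 : (d : ℤ) ∣ (d : ℤ) * t - (j : ℤ) := (Int.natCast_dvd_natCast.2 hd).trans h2
    have h4 : (d : ℤ) ∣ (j : ℤ) := by
      have := (dvd_sub_right (Dvd.intro t rfl : (d : ℤ) ∣ (d : ℤ) * t)).1 h3
      exact this
    exact Int.natCast_dvd_natCast.1 h4
  · rintro ⟨t, rfl⟩
    rw [pow_mul]
    exact Subgroup.pow_mem _ (Subgroup.mem_zpowers _) _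

/-- `⟨c ^ j⟩ = ⟨c⟩ ↔ gcd (n, j) = 1`. -/
theorem artinId_zpowers_pow_eq (c : Γ) (hc : 0 < orderOf c) (j : ℕ) :
    Subgroup.zpowers (c ^ j) = Subgroup.zpowers c ↔ (orderOf c).gcd j = 1 := by
  have hfin : IsOfFinOrder c := orderOf_pos_iff.1 hc
  haveI : Finite (Subgroup.zpowers c) := by
    rw [← Nat.card_pos_iff.trans ⟨fun h => h.2, fun h => ⟨⟨1⟩, h⟩⟩]
    rw [Nat.card_zpowers]
    exact hc
  have hle : Subgroup.zpowers (c ^ j) ≤ Subgroup.zpowers c :=
    Subgroup.zpowers_le.2 (Subgroup.pow_mem _ (Subgroup.mem_zpowers _) _)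
  have hord : orderOf (c ^ j) = orderOf c / (orderOf c).gcd j := IsOfFinOrder.orderOf_pow c j hfin
  constructor
  · intro h
    have h1 : orderOf (c ^ j) = orderOf c := by
      rw [← Nat.card_zpowers, ← Nat.card_zpowers c, h]
    rw [hord] at h1
    rcases Nat.div_eq_self.1 h1 with h0 | h0
    · exact absurd h0 hc.ne'
    · exact h0
  · intro h
    apply Subgroup.eq_of_le_of_card_ge hle
    rw [Nat.card_zpowers, Nat.card_zpowers, hord, h, Nat.div_one]

/-- **Möbius detects the generators of a cyclic group.** -/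
theorem artinId_moebius_detect (c h : Γ) (hc : 0 < orderOf c) :
    ∑ d ∈ (orderOf c).divisors,
        (moebius d : ℤ) * (if h ∈ Subgroup.zpowers (c ^ d) then 1 else 0)
      = if Subgroup.zpowers h = Subgroup.zpowers c then 1 else 0 := by
  classical
  by_cases hmem : h ∈ Subgroup.zpowers c
  · obtain ⟨j, rfl⟩ : ∃ j : ℕ, c ^ j = h := by
      obtain ⟨t, ht⟩ := Subgroup.mem_zpowers_iff.1 hmem
      refine ⟨(t % (orderOf c : ℤ)).toNat, ?_⟩
      have hnn : 0 ≤ t % (orderOf c : ℤ) := Int.emod_nonneg _ (by exact_mod_cast hc.ne')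
      rw [← zpow_natCast, Int.toNat_of_nonneg hnn, zpow_mod_orderOf, ht]
    have h1 : ∀ d ∈ (orderOf c).divisors,
        (moebius d : ℤ) * (if c ^ j ∈ Subgroup.zpowers (c ^ d) then 1 else 0)
          = if d ∣ j then (moebius d : ℤ) else 0 := by
      intro d hd
      simp only [artinId_pow_mem_zpowers_pow c (Nat.mem_divisors.1 hd).1 j]
      split_ifs <;> simp
    rw [Finset.sum_congr rfl h1, ← Finset.sum_filter,
      show ((orderOf c).divisors.filter fun d => d ∣ j) = ((orderOf c).gcd j).divisors from by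
        ext d
        simp only [Finset.mem_filter, Nat.mem_divisors]
        constructor
        · rintro ⟨⟨h1, -⟩, h2⟩
          exact ⟨Nat.dvd_gcd h1 h2, (Nat.gcd_pos_of_pos_left _ hc).ne'⟩
        · rintro ⟨h1, -⟩
          exact ⟨⟨h1.trans (Nat.gcd_dvd_left _ _), hc.ne'⟩, h1.trans (Nat.gcd_dvd_right _ _)⟩,
      artinId_sum_moebius]
    simp only [artinId_zpowers_pow_eq c hc j]
  · have h1 : ∀ d ∈ (orderOf c).divisors,
        (moebius d : ℤ) * (if h ∈ Subgroup.zpowers (c ^ d) then 1 else 0) = 0 := by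
      intro d _
      have : h ∉ Subgroup.zpowers (c ^ d) := fun hh =>
        hmem (Subgroup.zpowers_le.2 (Subgroup.pow_mem _ (Subgroup.mem_zpowers _) _) hh)
      rw [if_neg this, mul_zero]
    rw [Finset.sum_eq_zero h1, if_neg]
    intro heq
    exact hmem (heq ▸ Subgroup.mem_zpowers h)

/-- A chosen generator of a cyclic subgroup (junk value `1` otherwise). -/
noncomputable def artinGen (C : Subgroup Γ) : Γ :=
  if h : ∃ c, Subgroup.zpowers c = C then Classical.choose h else 1

theorem artinGen_zpowers (x : Γ) :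
    Subgroup.zpowers (artinGen (Subgroup.zpowers x)) = Subgroup.zpowers x := by
  have h : ∃ c, Subgroup.zpowers c = Subgroup.zpowers x := ⟨x, rfl⟩
  rw [artinGen, dif_pos h]
  exact Classical.choose_spec h

section Fin

variable [Fintype Γ]

/-- The chosen generators of the cyclic subgroups of `Γ`: one for each cyclic subgroup. -/
noncomputable def artinReps : Finset Γ :=
  Finset.univ.filter fun c => artinGen (Subgroup.zpowers c) = c

theorem artinId_sum_reps (h : Γ) :
    ∑ c ∈ (artinReps : Finset Γ),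
      (if Subgroup.zpowers h = Subgroup.zpowers c then (1 : ℤ) else 0) = 1 := by
  have hc₀ : artinGen (Subgroup.zpowers h) ∈ (artinReps : Finset Γ) := by
    rw [artinReps, Finset.mem_filter]
    exact ⟨Finset.mem_univ _, by rw [artinGen_zpowers]⟩
  rw [Finset.sum_eq_single (artinGen (Subgroup.zpowers h))]
  · rw [if_pos (artinGen_zpowers h).symm]
  · intro c hc hne
    rw [if_neg]
    intro heq
    apply hne
    rw [artinReps, Finset.mem_filter] at hc
    rw [heq, hc.2]
  · intro hn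
    exact absurd hc₀ hn

/-- The number of `x ∈ Γ` with `x⁻¹ g x ∈ B`  (`= |B| · #Fix(g, Γ/B)`). -/
noncomputable def artinCount (g : Γ) (B : Subgroup Γ) : ℕ :=
  (Finset.univ.filter fun x : Γ => x⁻¹ * g * x ∈ B).card

theorem artinCount_eq_sum (g : Γ) (B : Subgroup Γ) :
    (artinCount g B : ℤ) = ∑ x : Γ, (if x⁻¹ * g * x ∈ B then (1 : ℤ) else 0) := by
  rw [artinCount, Finset.sum_boole]

/-- **Artin's identity**: `∑_C ∑_{d ∣ |C|} μ(d) · #{x : x⁻¹ g x ∈ C^d} = |Γ|`, the sum over the cyclic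
subgroups `C = ⟨c⟩` of `Γ`, `C^d = ⟨c^d⟩` the subgroup of index `d`. -/
theorem artinId_main (g : Γ) :
    ∑ c ∈ (artinReps : Finset Γ), ∑ d ∈ (orderOf c).divisors,
        (moebius d : ℤ) * (artinCount g (Subgroup.zpowers (c ^ d)) : ℤ)
      = Fintype.card Γ := by
  have h1 : ∀ c ∈ (artinReps : Finset Γ), ∑ d ∈ (orderOf c).divisors,
        (moebius d : ℤ) * (artinCount g (Subgroup.zpowers (c ^ d)) : ℤ)
      = ∑ x : Γ, (if Subgroup.zpowers (x⁻¹ * g * x) = Subgroup.zpowers c then (1 : ℤ) else 0) := by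
    intro c _
    simp only [artinCount_eq_sum, Finset.mul_sum]
    rw [Finset.sum_comm]
    refine Finset.sum_congr rfl fun x _ => ?_
    exact artinId_moebius_detect c (x⁻¹ * g * x) (orderOf_pos c)
  rw [Finset.sum_congr rfl h1, Finset.sum_comm]
  simp only [artinId_sum_reps, Finset.sum_const, Finset.card_univ, nsmul_eq_mul, mul_one]

/-- **Artin's identity on `p`-regular elements**: only the cyclic subgroups of order prime to `p`
occur. -/
theorem artinId_main_reg (p : ℕ) (g : Γ) (hg : (orderOf g).Coprime p) :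
    ∑ c ∈ (artinReps : Finset Γ).filter (fun c => (orderOf c).Coprime p),
        ∑ d ∈ (orderOf c).divisors,
          (moebius d : ℤ) * (artinCount g (Subgroup.zpowers (c ^ d)) : ℤ)
      = Fintype.card Γ := by
  rw [← artinId_main g, Finset.sum_filter]
  refine Finset.sum_congr rfl fun c _ => ?_
  split_ifs with hcp
  · rfl
  · symm
    have h1 : ∑ d ∈ (orderOf c).divisors,
        (moebius d : ℤ) * (artinCount g (Subgroup.zpowers (c ^ d)) : ℤ)
      = ∑ x : Γ, (if Subgroup.zpowers (x⁻¹ * g * x) = Subgroup.zpowers c then (1 : ℤ) else 0) := by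
      simp only [artinCount_eq_sum, Finset.mul_sum]
      rw [Finset.sum_comm]
      refine Finset.sum_congr rfl fun x _ => ?_
      exact artinId_moebius_detect c (x⁻¹ * g * x) (orderOf_pos c)
    rw [h1]
    refine Finset.sum_eq_zero fun x _ => ?_
    rw [if_neg]
    intro heq
    apply hcp
    have h2 : orderOf (x⁻¹ * g * x) = orderOf c := by
      rw [← Nat.card_zpowers, heq, Nat.card_zpowers]
    have h3 : orderOf (x⁻¹ * g * x) = orderOf g := by
      have hsc : SemiconjBy x (x⁻¹ * g * x) g := by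
        unfold SemiconjBy
        group
      exact hsc.orderOf_eq
    rw [← h2, h3]
    exact hg

/-- `#{x : x⁻¹ g x ∈ B} = |B| · #Fix(g, Γ/B)`. -/
theorem artinCount_eq_card_mul (g : Γ) (B : Subgroup Γ) :
    artinCount g B = Nat.card B * Nat.card {y : Γ ⧸ B // g • y = y} := by
  have h1 : (artinCount g B : ℕ)
      = Nat.card ((QuotientGroup.mk : Γ → Γ ⧸ B) ⁻¹' {y : Γ ⧸ B | g • y = y}) := by
    rw [artinCount, ← Nat.card_eq_finsetCard]
    refine Nat.card_congr (Equiv.subtypeEquivRight fun x => ?_)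
    simp only [Finset.mem_filter, Finset.mem_univ, true_and, Set.mem_preimage, Set.mem_ofPred_eq]
    rw [show g • (QuotientGroup.mk x : Γ ⧸ B) = QuotientGroup.mk (g * x) from rfl,
      QuotientGroup.eq]
    constructor
    · intro h
      have := B.inv_mem h
      have e : (x⁻¹ * g * x)⁻¹ = (g * x)⁻¹ * x := by group
      rwa [e] at this
    · intro h
      have := B.inv_mem h
      have e : ((g * x)⁻¹ * x)⁻¹ = x⁻¹ * g * x := by group
      rwa [e] at this
  rw [h1, QuotientGroup.card_preimage_mk]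
  rfl

/-- **Artin's identity, fixed point form** (all `g ∈ Γ`, all cyclic subgroups):
`∑_{C = ⟨c⟩} ∑_{d ∣ |C|} μ(d) · |⟨c^d⟩| · #Fix(g, Γ/⟨c^d⟩) = |Γ|`. -/
theorem artinId_fix (g : Γ) :
    ∑ c ∈ (artinReps : Finset Γ), ∑ d ∈ (orderOf c).divisors,
        (moebius d : ℤ) * ((Nat.card (Subgroup.zpowers (c ^ d)) : ℤ) *
          (Nat.card {y : Γ ⧸ Subgroup.zpowers (c ^ d) // g • y = y} : ℤ))
      = Fintype.card Γ := by
  rw [← artinId_main g]
  refine Finset.sum_congr rfl fun c _ => Finset.sum_congr rfl fun d _ => ?_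
  rw [artinCount_eq_card_mul, Nat.cast_mul]

/-- **Artin's identity, fixed point form, on `p`-regular elements**: only cyclic subgroups of order
prime to `p` occur. -/
theorem artinId_fix_reg (p : ℕ) (g : Γ) (hg : (orderOf g).Coprime p) :
    ∑ c ∈ (artinReps : Finset Γ).filter (fun c => (orderOf c).Coprime p),
        ∑ d ∈ (orderOf c).divisors,
          (moebius d : ℤ) * ((Nat.card (Subgroup.zpowers (c ^ d)) : ℤ) *
            (Nat.card {y : Γ ⧸ Subgroup.zpowers (c ^ d) // g • y = y} : ℤ))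
      = Fintype.card Γ := by
  rw [← artinId_main_reg p g hg]
  refine Finset.sum_congr rfl fun c _ => Finset.sum_congr rfl fun d _ => ?_
  rw [artinCount_eq_card_mul, Nat.cast_mul]

/-- **Artin's identity, existence form**: integers `a i` and cyclic subgroups `B i` with
`∑ i, a i · #Fix(g, Γ/B i) = |Γ|` for ALL `g ∈ Γ`. -/
theorem artinId_exists :
    ∃ (ι : Type) (_ : Fintype ι) (B : ι → Subgroup Γ) (a : ι → ℤ), (∀ i, IsCyclic (B i)) ∧
      ∀ g : Γ, ∑ i, a i * (Nat.card {y : Γ ⧸ B i // g • y = y} : ℤ) = Fintype.card Γ := by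
  refine ⟨↥((artinReps : Finset Γ).sigma fun c => (orderOf c).divisors), inferInstance,
    fun i => Subgroup.zpowers (i.1.1 ^ i.1.2),
    fun i => (moebius i.1.2 : ℤ) * (Nat.card (Subgroup.zpowers (i.1.1 ^ i.1.2)) : ℤ),
    fun i => inferInstance, fun g => ?_⟩
  rw [← artinId_fix g]
  rw [Finset.sum_coe_sort ((artinReps : Finset Γ).sigma fun c => (orderOf c).divisors)
    (fun i : (_ : Γ) × ℕ => (moebius i.2 : ℤ) * (Nat.card (Subgroup.zpowers (i.1 ^ i.2)) : ℤ) *
      (Nat.card {y : Γ ⧸ Subgroup.zpowers (i.1 ^ i.2) // g • y = y} : ℤ)),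
    Finset.sum_sigma]
  refine Finset.sum_congr rfl fun c _ => Finset.sum_congr rfl fun d _ => ?_
  rw [mul_assoc]

/-- **Artin's identity, existence form on `p`-regular elements**: integers `a i` and cyclic subgroups
`B i` of order prime to `p` with `∑ i, a i · #Fix(g, Γ/B i) = |Γ|` for all `p`-regular `g ∈ Γ`. -/
theorem artinId_exists_reg (p : ℕ) :
    ∃ (ι : Type) (_ : Fintype ι) (B : ι → Subgroup Γ) (a : ι → ℤ),
      (∀ i, IsCyclic (B i) ∧ (Nat.card (B i)).Coprime p) ∧
      ∀ g : Γ, (orderOf g).Coprime p →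
        ∑ i, a i * (Nat.card {y : Γ ⧸ B i // g • y = y} : ℤ) = Fintype.card Γ := by
  refine ⟨↥(((artinReps : Finset Γ).filter fun c => (orderOf c).Coprime p).sigma
      fun c => (orderOf c).divisors), inferInstance,
    fun i => Subgroup.zpowers (i.1.1 ^ i.1.2),
    fun i => (moebius i.1.2 : ℤ) * (Nat.card (Subgroup.zpowers (i.1.1 ^ i.1.2)) : ℤ),
    fun i => ⟨inferInstance, ?_⟩, fun g hg => ?_⟩
  · have hi := i.2
    rw [Finset.mem_sigma, Finset.mem_filter] at hi
    rw [Nat.card_zpowers]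
    exact Nat.Coprime.coprime_dvd_left (orderOf_pow_dvd _) hi.1.2
  · rw [← artinId_fix_reg p g hg]
    rw [Finset.sum_coe_sort (((artinReps : Finset Γ).filter fun c => (orderOf c).Coprime p).sigma
        fun c => (orderOf c).divisors)
      (fun i : (_ : Γ) × ℕ => (moebius i.2 : ℤ) * (Nat.card (Subgroup.zpowers (i.1 ^ i.2)) : ℤ) *
        (Nat.card {y : Γ ⧸ Subgroup.zpowers (i.1 ^ i.2) // g • y = y} : ℤ)),
      Finset.sum_sigma]
    refine Finset.sum_congr rfl fun c _ => Finset.sum_congr rfl fun d _ => ?_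
    rw [mul_assoc]

/-- **Artin's identity for a family of cyclic subgroups** closed under conjugation and under
passing to subgroups: for `g` with `⟨g⟩ ∈ 𝔉` only the cyclic subgroups in `𝔉` occur. -/
theorem artinId_main_family (𝔉 : Set (Subgroup Γ))
    (hconj : ∀ g x : Γ, Subgroup.zpowers g ∈ 𝔉 → Subgroup.zpowers (x⁻¹ * g * x) ∈ 𝔉)
    (g : Γ) (hg : Subgroup.zpowers g ∈ 𝔉) :
    ∑ c ∈ (artinReps : Finset Γ).filter (fun c => Subgroup.zpowers c ∈ 𝔉),
        ∑ d ∈ (orderOf c).divisors,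
          (moebius d : ℤ) * (artinCount g (Subgroup.zpowers (c ^ d)) : ℤ)
      = Fintype.card Γ := by
  rw [← artinId_main g, Finset.sum_filter]
  refine Finset.sum_congr rfl fun c _ => ?_
  split_ifs with hcp
  · rfl
  · symm
    have h1 : ∑ d ∈ (orderOf c).divisors,
        (moebius d : ℤ) * (artinCount g (Subgroup.zpowers (c ^ d)) : ℤ)
      = ∑ x : Γ, (if Subgroup.zpowers (x⁻¹ * g * x) = Subgroup.zpowers c then (1 : ℤ) else 0) := by
      simp only [artinCount_eq_sum, Finset.mul_sum]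
      rw [Finset.sum_comm]
      refine Finset.sum_congr rfl fun x _ => ?_
      exact artinId_moebius_detect c (x⁻¹ * g * x) (orderOf_pos c)
    rw [h1]
    refine Finset.sum_eq_zero fun x _ => ?_
    rw [if_neg]
    intro heq
    exact hcp (heq ▸ hconj g x hg)

/-- **Artin's identity for a family, existence form**: integers `a i` and cyclic subgroups
`B i ∈ 𝔉` with `∑ i, a i · #Fix(g, Γ/B i) = |Γ|` for all `g` with `⟨g⟩ ∈ 𝔉`. -/
theorem artinId_exists_family (𝔉 : Set (Subgroup Γ))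
    (hconj : ∀ g x : Γ, Subgroup.zpowers g ∈ 𝔉 → Subgroup.zpowers (x⁻¹ * g * x) ∈ 𝔉)
    (hsub : ∀ C ∈ 𝔉, ∀ B : Subgroup Γ, B ≤ C → B ∈ 𝔉) :
    ∃ (ι : Type) (_ : Fintype ι) (B : ι → Subgroup Γ) (a : ι → ℤ),
      (∀ i, IsCyclic (B i) ∧ B i ∈ 𝔉) ∧
      ∀ g : Γ, Subgroup.zpowers g ∈ 𝔉 →
        ∑ i, a i * (Nat.card {y : Γ ⧸ B i // g • y = y} : ℤ) = Fintype.card Γ := by
  refine ⟨↥(((artinReps : Finset Γ).filter fun c => Subgroup.zpowers c ∈ 𝔉).sigma
      fun c => (orderOf c).divisors), inferInstance,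
    fun i => Subgroup.zpowers (i.1.1 ^ i.1.2),
    fun i => (moebius i.1.2 : ℤ) * (Nat.card (Subgroup.zpowers (i.1.1 ^ i.1.2)) : ℤ),
    fun i => ⟨inferInstance, ?_⟩, fun g hg => ?_⟩
  · have hi := i.2
    rw [Finset.mem_sigma, Finset.mem_filter] at hi
    exact hsub _ hi.1.2 _
      (Subgroup.zpowers_le.2 (Subgroup.pow_mem _ (Subgroup.mem_zpowers _) _))
  · rw [← artinId_main_family 𝔉 hconj g hg]
    rw [Finset.sum_coe_sort (((artinReps : Finset Γ).filter fun c => Subgroup.zpowers c ∈ 𝔉).sigma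
        fun c => (orderOf c).divisors)
      (fun i : (_ : Γ) × ℕ => (moebius i.2 : ℤ) * (Nat.card (Subgroup.zpowers (i.1 ^ i.2)) : ℤ) *
        (Nat.card {y : Γ ⧸ Subgroup.zpowers (i.1 ^ i.2) // g • y = y} : ℤ)),
      Finset.sum_sigma]
    refine Finset.sum_congr rfl fun c _ => Finset.sum_congr rfl fun d _ => ?_
    rw [artinCount_eq_card_mul, Nat.cast_mul, mul_assoc]

end Fin

end Fermat.Agent.S56.EC
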