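/-
S56, wall W2-EC, leaf (B) Brauer–Artin induction: DEFINITIONS and the statements of the
sub-leaves.  FIXED (helper58).

`Γ` a finite group, `p` a prime, all modules are finite `𝔽_p[Γ]`-modules (`Rep (ZMod p) Γ`).

* `repCharpoly A γ` : the characteristic polynomial of `γ` on `A` (`1` if `A` is not finite);
* `IsPReg p γ` : `γ` is `p`-regular (its order is prime to `p`);
* `orbCount γ C r` : the number of orbits of size `r` of `⟨γ⟩` on `Γ ⧸ C`;

* **(B1)** `BrauerNesbitt p Γ` : for a finite family `X i` with weights `n⁺ i, n⁻ i : ℕ`, if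
  `∏ charpoly(γ | X i)^{n⁺ i} = ∏ charpoly(γ | X i)^{n⁻ i}` for all `p`-regular `γ`, then
  `Σ n⁺ i · d (X i) = Σ n⁻ i · d (X i)` for every additive `d`.
  Proof: simple modules `S_1, …, S_m` up to isomorphism; multiplicities are additive;
  `d X = Σ_j m_j(X) d(S_j)`, `charpoly(γ | X) = ∏_j charpoly(γ | S_j)^{m_j(X)}`;
  `charpoly(γ) = charpoly(γ_{p'})`; if `N_j := Σ_i (n⁺ i - n⁻ i) m_j(X i)` are not all `0`, divide
  by the largest common power of `p` (Frobenius is injective on `𝔽_p[T]`), compare the second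
  coefficients: `Σ_j N_j' tr(a | S_j) = 0` for all `a ∈ 𝔽_p[Γ]`; by the density theorem there is
  `a` acting on `S_j` with trace `1` and as `0` on the other `S_i`: `p ∣ N_j'` for all `j`.
* **(B2)** `IndCharpoly p Γ` : `charpoly(γ | Hom(𝔽_p[Γ/C], A)) = ∏_{orbits ω of ⟨γ⟩ on Γ/C}
  charpoly(γ^{|ω|} | A)(T^{|ω|})`.
* **(B3)** `ArtinRefined p Γ` : integers `z_B`, supported on the cyclic subgroups `B` of order
  prime to `p`, with `Σ_B z_B · orbCount γ B r = #Γ · [r = 1]` for all `p`-regular `γ` and all `r`.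
  Proof: `z_B = Σ_{C ⊇ B cyclic p'} μ(|C : B|) · |B|` gives `Σ_B z_B · #Fix(h | Γ/B) = #Γ` for all
  `p`-regular `h` (Artin); apply it to `h = γ^j`: `#Fix(γ^j | Γ/B) = Σ_{r ∣ j} r · orbCount γ B r`;
  induction on `r`.
-/
import Fermat.Agent.S56.W2.EC.Defs

set_option autoImplicit false

namespace Fermat.Agent.S56.EC

open Fermat.Agent.F4 Polynomial

variable {p : ℕ} [Fact p.Prime] {Γ : Type} [Group Γ]

open Classical in
/-- The characteristic polynomial of `γ` on `A` (`1` if `A` is not finite). -/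
noncomputable def repCharpoly (A : Rep.{0} (ZMod p) Γ) (γ : Γ) : (ZMod p)[X] :=
  if h : Module.Finite (ZMod p) A then
    haveI := h
    LinearMap.charpoly (A.ρ γ)
  else 1

lemma repCharpoly_eq (A : Rep.{0} (ZMod p) Γ) [Module.Finite (ZMod p) A] (γ : Γ) :
    repCharpoly A γ = LinearMap.charpoly (A.ρ γ) := by
  unfold repCharpoly
  exact dif_pos ‹Module.Finite (ZMod p) A›

/-- `γ` is `p`-regular. -/
def IsPReg (p : ℕ) (γ : Γ) : Prop := (orderOf γ).Coprime p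

/-- The number of orbits of size `r` of `⟨γ⟩` on `Γ ⧸ C`. -/
noncomputable def orbCount (γ : Γ) (C : Subgroup Γ) (r : ℕ) : ℕ :=
  Nat.card {ω : MulAction.orbitRel.Quotient (Subgroup.zpowers γ) (Γ ⧸ C) //
    Nat.card ω.orbit = r}

/-- **(B1)** Brauer–Nesbitt. -/
def BrauerNesbitt (p : ℕ) [Fact p.Prime] (Γ : Type) [Group Γ] : Prop :=
  ∀ (ι : Type) [Fintype ι] (X : ι → Rep.{0} (ZMod p) Γ),
    (∀ i, Module.Finite (ZMod p) (X i)) → ∀ (nP nM : ι → ℕ),
    (∀ γ : Γ, IsPReg p γ →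
      ∏ i, repCharpoly (X i) γ ^ nP i = ∏ i, repCharpoly (X i) γ ^ nM i) →
    ∀ d : Rep.{0} (ZMod p) Γ → ℤ, IsAdditiveFn d →
      ∑ i, (nP i : ℤ) * d (X i) = ∑ i, (nM i : ℤ) * d (X i)

/-- **(B2)** the characteristic polynomial of `γ` on `Hom(𝔽_p[Γ/C], A)`. -/
def IndCharpoly (p : ℕ) [Fact p.Prime] (Γ : Type) [Group Γ] : Prop :=
  ∀ (C : Subgroup Γ) (A : Rep.{0} (ZMod p) Γ), Module.Finite (ZMod p) A → ∀ γ : Γ,
    repCharpoly (homRep (permRep (ZMod p) C) A) γ =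
      ∏ᶠ ω : MulAction.orbitRel.Quotient (Subgroup.zpowers γ) (Γ ⧸ C),
        expand (ZMod p) (Nat.card ω.orbit) (repCharpoly A (γ ^ Nat.card ω.orbit))

/-- **(B3)** Artin's induction theorem on `p`-regular elements, with orbit counts. -/
def ArtinRefined (p : ℕ) [Fact p.Prime] (Γ : Type) [Group Γ] : Prop :=
  ∃ z : Subgroup Γ → ℤ, (∀ B, z B ≠ 0 → IsCyclic B ∧ ¬ p ∣ Nat.card B) ∧
    ∀ γ : Γ, IsPReg p γ → ∀ r : ℕ,
      ∑ᶠ B : Subgroup Γ, z B * (orbCount γ B r : ℤ) = if r = 1 then (Nat.card Γ : ℤ) else 0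

end Fermat.Agent.S56.EC
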