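/-
S56, wall W2-EC, leaf (B3) — owner: helper71 (Artin identity with orbit counts).  DONE.
Statement FIXED (helper58).  Plan: header of `EC/Brauer/Defs.lean`.
Proof: `EC/Brauer/ArtinId.lean` (Artin's identity for the fixed points of `p`-regular elements),
`EC/Brauer/ArtinRefined/Orb.lean` (`#Fix(γ^j) = ∑_{r ∣ j} r · #{orbits of size r}`), induction on `r`.
-/
import Fermat.Agent.S56.W2.EC.Brauer.Defs
import Fermat.Agent.S56.W2.EC.Brauer.ArtinId
import Fermat.Agent.S56.W2.EC.Brauer.ArtinRefined.Orb

set_option autoImplicit false
set_option linter.style.haveILetI false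

namespace Fermat.Agent.S56.EC

open scoped Classical in
/-- **(B3)** Artin's induction theorem on `p`-regular elements, with orbit counts. -/
theorem artinRefined (p : ℕ) [Fact p.Prime] (Γ : Type) [Group Γ] [Finite Γ] :
    ArtinRefined p Γ := by
  haveI : Fintype Γ := Fintype.ofFinite Γ
  haveI : Fintype (Subgroup Γ) := Fintype.ofFinite _
  obtain ⟨ι, hι, Bι, a, hB, hsum⟩ := artinId_exists_reg (Γ := Γ) p
  refine ⟨fun B => ∑ i, if Bι i = B then a i else 0, ?_, ?_⟩
  · intro B hz
    obtain ⟨i, -, hi⟩ := Finset.exists_ne_zero_of_sum_ne_zero hz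
    have hiB : Bι i = B := by
      by_contra h
      exact hi (if_neg h)
    rw [← hiB]
    refine ⟨(hB i).1, fun hdvd => ?_⟩
    have h1 : p ∣ Nat.gcd (Nat.card (Bι i)) p := Nat.dvd_gcd hdvd dvd_rfl
    rw [Nat.Coprime.gcd_eq_one (hB i).2] at h1
    exact (Fact.out : p.Prime).one_lt.ne' (Nat.dvd_one.1 h1)
  · intro γ hγ r
    -- collect the family by subgroups
    have key : ∀ f : Subgroup Γ → ℤ,
        ∑ᶠ B : Subgroup Γ, (∑ i, if Bι i = B then a i else 0) * f B = ∑ i, a i * f (Bι i) := by
      intro f
      rw [finsum_eq_sum_of_fintype]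
      simp only [Finset.sum_mul]
      rw [Finset.sum_comm]
      refine Finset.sum_congr rfl fun i _ => ?_
      simp only [ite_mul, zero_mul]
      rw [Finset.sum_ite_eq]
      simp
    rw [key fun B => (orbCount γ B r : ℤ)]
    -- the sums `F r`
    have hF : ∀ j : ℕ, j ≠ 0 →
        ∑ s ∈ j.divisors, (s : ℤ) * ∑ i, a i * (orbCount γ (Bι i) s : ℤ) = Fintype.card Γ := by
      intro j hj
      have hreg : (orderOf (γ ^ j)).Coprime p :=
        Nat.Coprime.coprime_dvd_left (orderOf_pow_dvd j) hγ
      rw [← hsum (γ ^ j) hreg]
      simp only [Finset.mul_sum]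
      rw [Finset.sum_comm]
      refine Finset.sum_congr rfl fun i _ => ?_
      rw [orb_card_fixed_pow (X := Γ ⧸ Bι i) γ hj]
      push_cast
      rw [Finset.mul_sum]
      refine Finset.sum_congr rfl fun s _ => ?_
      unfold orbCount
      rw [mul_left_comm]
      rfl
    -- induction on `r`
    induction r using Nat.strong_induction_on with
    | _ r ih =>
      rcases Nat.lt_or_ge r 2 with hr | hr
      · interval_cases r
        · -- `r = 0`: no orbit is empty
          rw [if_neg (by norm_num)]
          refine Finset.sum_eq_zero fun i _ => ?_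
          have : orbCount γ (Bι i) 0 = 0 := by
            unfold orbCount
            haveI : IsEmpty {ω : MulAction.orbitRel.Quotient (Subgroup.zpowers γ) (Γ ⧸ Bι i) //
                Nat.card ω.orbit = 0} := by
              refine ⟨fun ω => ?_⟩
              obtain ⟨x, hx⟩ := Quotient.exists_rep ω.1
              haveI : Nonempty ω.1.orbit :=
                ⟨⟨x, MulAction.orbitRel.Quotient.mem_orbit.2 hx⟩⟩
              exact (Nat.card_pos (α := ω.1.orbit)).ne' ω.2
            exact Nat.card_of_isEmpty
          rw [this, Nat.cast_zero, mul_zero]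
        · -- `r = 1`
          rw [if_pos rfl]
          have := hF 1 one_ne_zero
          rw [Nat.divisors_one, Finset.sum_singleton, Nat.cast_one, one_mul] at this
          rw [this, Nat.card_eq_fintype_card]
      · have hr1 : r ≠ 1 := by omega
        rw [if_neg hr1]
        have h1 := hF r (by omega)
        rw [← Nat.insert_self_properDivisors (by omega : r ≠ 0),
          Finset.sum_insert Nat.self_notMem_properDivisors] at h1
        have h2 : ∑ s ∈ r.properDivisors, (s : ℤ) * ∑ i, a i * (orbCount γ (Bι i) s : ℤ)
            = Fintype.card Γ := by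
          have h3 : ∀ s ∈ r.properDivisors, (s : ℤ) * ∑ i, a i * (orbCount γ (Bι i) s : ℤ)
              = if s = 1 then (Fintype.card Γ : ℤ) else 0 := by
            intro s hs
            have hlt : s < r := (Nat.mem_properDivisors.1 hs).2
            rw [ih s hlt]
            split_ifs with h
            · rw [h, Nat.cast_one, one_mul, Nat.card_eq_fintype_card]
            · rw [mul_zero]
          rw [Finset.sum_congr rfl h3, Finset.sum_ite_eq']
          rw [if_pos (Nat.one_mem_properDivisors_iff_one_lt.2 (by omega))]
        rw [h2] at h1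
        have h4 : (r : ℤ) * ∑ i, a i * (orbCount γ (Bι i) r : ℤ) = 0 := by linarith
        rcases mul_eq_zero.1 h4 with h5 | h5
        · exact absurd (by exact_mod_cast h5) (by omega : r ≠ 0)
        · exact h5

end Fermat.Agent.S56.EC
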