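/-
S56, wall W2-EC, leaf (B4) (helper58): Brauer–Artin induction from (B1) Brauer–Nesbitt,
(B2) the characteristic polynomials of the induced modules and (B3) Artin's identity with orbit
counts.  Sorry-free.
-/
import Fermat.Agent.S56.W2.EC.Brauer.Defs

set_option autoImplicit false

namespace Fermat.Agent.S56.EC

open Fermat.Agent.F4 Polynomial

variable {p : ℕ} [Fact p.Prime] {Γ : Type} [Group Γ] [Finite Γ]

/-- The factor of an orbit of size `r`. -/
noncomputable def bindQ (A : Rep.{0} (ZMod p) Γ) (γ : Γ) (r : ℕ) : (ZMod p)[X] :=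
  expand (ZMod p) r (repCharpoly A (γ ^ r))

lemma bindQ_one (A : Rep.{0} (ZMod p) Γ) (γ : Γ) : bindQ A γ 1 = repCharpoly A γ := by
  unfold bindQ
  rw [expand_one, pow_one]

open Classical in
/-- Regrouping the product over the orbits by their size. -/
lemma bind_prod_orbits (A : Rep.{0} (ZMod p) Γ) (γ : Γ) (C : Subgroup Γ) :
    ∏ᶠ ω : MulAction.orbitRel.Quotient (Subgroup.zpowers γ) (Γ ⧸ C),
        expand (ZMod p) (Nat.card ω.orbit) (repCharpoly A (γ ^ Nat.card ω.orbit))
      = ∏ r ∈ Finset.range (Nat.card Γ + 1), bindQ A γ r ^ orbCount γ C r := by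
  haveI : Fintype (MulAction.orbitRel.Quotient (Subgroup.zpowers γ) (Γ ⧸ C)) := Fintype.ofFinite _
  rw [finprod_eq_prod_of_fintype]
  have hle : ∀ ω : MulAction.orbitRel.Quotient (Subgroup.zpowers γ) (Γ ⧸ C),
      Nat.card ω.orbit ∈ Finset.range (Nat.card Γ + 1) := by
    intro ω
    rw [Finset.mem_range, Nat.lt_succ_iff]
    calc Nat.card ω.orbit ≤ Nat.card (Γ ⧸ C) := Nat.card_le_card_of_injective _ Subtype.val_injective
      _ ≤ Nat.card Γ := Nat.card_le_card_of_surjective _ (QuotientGroup.mk_surjective)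
  rw [← Finset.prod_fiberwise_of_maps_to (g := fun ω => Nat.card ω.orbit) (fun ω _ => hle ω)]
  refine Finset.prod_congr rfl fun r _ => ?_
  rw [Finset.prod_congr rfl (g := fun _ => bindQ A γ r) (fun ω hω => by
    rw [Finset.mem_filter] at hω
    show expand (ZMod p) (Nat.card ω.orbit) (repCharpoly A (γ ^ Nat.card ω.orbit)) = bindQ A γ r
    rw [hω.2]; rfl)]
  rw [Finset.prod_const]
  congr 1
  unfold orbCount
  rw [Nat.card_eq_fintype_card, Fintype.card_subtype]

end Fermat.Agent.S56.EC

namespace Fermat.Agent.S56.EC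

open Fermat.Agent.F4 Polynomial

variable {p : ℕ} [Fact p.Prime] {Γ : Type} [Group Γ] [Finite Γ]

lemma bind_finite_hom (C : Subgroup Γ) (A : Rep.{0} (ZMod p) Γ) (hA : Module.Finite (ZMod p) A) :
    Module.Finite (ZMod p) (homRep (permRep (ZMod p) C) A) := by
  haveI := hA
  show Module.Finite (ZMod p) (((Γ ⧸ C) → ZMod p) →ₗ[ZMod p] A)
  infer_instance

open Classical in
/-- **(B4)** Brauer–Artin induction from (B1), (B2), (B3). -/
theorem brauerInduction_of (hBN : BrauerNesbitt p Γ) (hInd : IndCharpoly p Γ)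
    (hArt : ArtinRefined p Γ) : BrauerInduction p Γ := by
  intro d hd hcyc A hA
  obtain ⟨z, hzsupp, hz⟩ := hArt
  haveI : Fintype (Subgroup Γ) := Fintype.ofFinite _
  -- the family
  let X : Option (Subgroup Γ) → Rep.{0} (ZMod p) Γ := fun i =>
    match i with
    | none => A
    | some B => homRep (permRep (ZMod p) B) A
  let nP : Option (Subgroup Γ) → ℕ := fun i =>
    match i with
    | none => 0
    | some B => (z B).toNat
  let nM : Option (Subgroup Γ) → ℕ := fun i =>
    match i with
    | none => Nat.card Γ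
    | some B => (-z B).toNat
  have hXfin : ∀ i, Module.Finite (ZMod p) (X i) := by
    intro i
    cases i with
    | none => exact hA
    | some B => exact bind_finite_hom B A hA
  -- the identity of characteristic polynomials
  have hpoly : ∀ γ : Γ, IsPReg p γ →
      ∏ i, repCharpoly (X i) γ ^ nP i = ∏ i, repCharpoly (X i) γ ^ nM i := by
    intro γ hγ
    rw [Fintype.prod_option, Fintype.prod_option]
    show repCharpoly A γ ^ 0 * ∏ B : Subgroup Γ,
        repCharpoly (homRep (permRep (ZMod p) B) A) γ ^ (z B).toNat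
      = repCharpoly A γ ^ Nat.card Γ * ∏ B : Subgroup Γ,
        repCharpoly (homRep (permRep (ZMod p) B) A) γ ^ (-z B).toNat
    rw [pow_zero, one_mul]
    have e : ∀ (B : Subgroup Γ) (k : ℕ),
        repCharpoly (homRep (permRep (ZMod p) B) A) γ ^ k =
          ∏ r ∈ Finset.range (Nat.card Γ + 1), bindQ A γ r ^ (orbCount γ B r * k) := by
      intro B k
      rw [hInd B A hA γ, bind_prod_orbits, ← Finset.prod_pow]
      exact Finset.prod_congr rfl fun r _ => (pow_mul _ _ _).symm
    simp only [e]
    rw [Finset.prod_comm, Finset.prod_comm (s := Finset.univ)]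
    simp only [Finset.prod_pow_eq_pow_sum]
    -- the exponents
    have hexp : ∀ r : ℕ, ∑ B : Subgroup Γ, orbCount γ B r * (z B).toNat =
        (if r = 1 then Nat.card Γ else 0) + ∑ B : Subgroup Γ, orbCount γ B r * (-z B).toNat := by
      intro r
      have h1 := hz γ hγ r
      rw [finsum_eq_sum_of_fintype] at h1
      have h2 : ∀ B : Subgroup Γ, z B * (orbCount γ B r : ℤ) =
          ((orbCount γ B r * (z B).toNat : ℕ) : ℤ) - ((orbCount γ B r * (-z B).toNat : ℕ) : ℤ) := by
        intro B
        push_cast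
        have := Int.toNat_sub_toNat_neg (z B)
        nlinarith [this]
      simp only [h2, Finset.sum_sub_distrib] at h1
      have h3 : ((∑ B : Subgroup Γ, orbCount γ B r * (z B).toNat : ℕ) : ℤ) =
          (((if r = 1 then Nat.card Γ else 0) +
            ∑ B : Subgroup Γ, orbCount γ B r * (-z B).toNat : ℕ) : ℤ) := by
        push_cast
        split_ifs at h1 ⊢ with hr
        · push_cast at h1 ⊢; linarith
        · push_cast at h1 ⊢; linarith
      exact_mod_cast h3
    simp only [hexp, pow_add]
    rw [Finset.prod_mul_distrib]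
    congr 1
    rw [Finset.prod_eq_single 1]
    · rw [if_pos rfl, bindQ_one]
    · intro r _ hr
      rw [if_neg hr, pow_zero]
    · intro h
      exfalso
      apply h
      rw [Finset.mem_range]
      have : 0 < Nat.card Γ := Nat.card_pos
      omega
  have key := hBN (Option (Subgroup Γ)) X hXfin nP nM hpoly d hd
  rw [Fintype.sum_option, Fintype.sum_option] at key
  -- all induced terms vanish
  have hP : ∀ B : Subgroup Γ, (nP (some B) : ℤ) * d (X (some B)) = 0 := by
    intro B
    by_cases hB : z B = 0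
    · show (((z B).toNat : ℕ) : ℤ) * _ = 0
      rw [hB]; simp
    · obtain ⟨h1, h2⟩ := hzsupp B hB
      show _ * d (homRep (permRep (ZMod p) B) A) = 0
      rw [hcyc B h1 h2 A hA, mul_zero]
  have hM : ∀ B : Subgroup Γ, (nM (some B) : ℤ) * d (X (some B)) = 0 := by
    intro B
    by_cases hB : z B = 0
    · show (((-z B).toNat : ℕ) : ℤ) * _ = 0
      rw [hB]; simp
    · obtain ⟨h1, h2⟩ := hzsupp B hB
      show _ * d (homRep (permRep (ZMod p) B) A) = 0
      rw [hcyc B h1 h2 A hA, mul_zero]
  rw [Finset.sum_eq_zero (fun B _ => hP B), Finset.sum_eq_zero (fun B _ => hM B)] at key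
  have key' : ((0 : ℕ) : ℤ) * d A + 0 = ((Nat.card Γ : ℕ) : ℤ) * d A + 0 := key
  have hN : ((Nat.card Γ : ℕ) : ℤ) ≠ 0 := by
    have : 0 < Nat.card Γ := Nat.card_pos
    exact_mod_cast this.ne'
  have : ((Nat.card Γ : ℕ) : ℤ) * d A = 0 := by
    rw [add_zero, add_zero] at key'
    rw [← key']; simp
  exact (mul_eq_zero.1 this).resolve_left hN

end Fermat.Agent.S56.EC
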