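/-
S56, wall W2-EC, leaf (B1) Brauer–Nesbitt.  DONE (sorry-free): assembled from
 (a) `bnList`   (BN/List.lean, helper58): finite complete list of simple modules;
 (b) `bn_filtration` (BN/Filt.lean, helper58): composition factors;
 (c) `bnIndep`  (BN/Indep.lean, helper88): independence of the characteristic polynomials;
 (d) `brauerNesbitt_of` (BN/Wire.lean, helper58).
-/
import Fermat.Agent.S56.W2.EC.Brauer.BN.Wire
import Fermat.Agent.S56.W2.EC.Brauer.BN.List
import Fermat.Agent.S56.W2.EC.Brauer.BN.Indep

set_option autoImplicit false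

namespace Fermat.Agent.S56.EC

/-- **(B1)** Brauer–Nesbitt. -/
theorem brauerNesbitt (p : ℕ) [Fact p.Prime] (Γ : Type) [Group Γ] [Finite Γ] :
    BrauerNesbitt p Γ :=
  brauerNesbitt_of (bnList p Γ) (bnIndep p Γ)

end Fermat.Agent.S56.EC
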