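/-
S56, wall W2-EC, leaf (B2) — owner: helper7.  PROVED, statement FIXED (helper58).
`Hom(𝔽_p[Γ/C], A) ≅ ⊕_{x ∈ Γ/C} A`, `(γ f)_x = γ · f_{γ⁻¹ x}`: block permutation matrix; the block of
an orbit of size `r` has characteristic polynomial `det(T^r - ρ_A(γ^r))`.
Helpers in `EC/Brauer/Ind/*.lean`.
-/
import Fermat.Agent.S56.W2.EC.Brauer.Defs
import Fermat.Agent.S56.W2.EC.Brauer.Ind.Main

set_option autoImplicit false

namespace Fermat.Agent.S56.EC

open Fermat.Agent.F4 Polynomial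

/-- **(B2)** the characteristic polynomial of `γ` on `Hom(𝔽_p[Γ/C], A)`. -/
theorem indCharpoly (p : ℕ) [Fact p.Prime] (Γ : Type) [Group Γ] [Finite Γ] :
    IndCharpoly p Γ := by
  classical
  intro C A hA γ
  haveI := hA
  haveI : Fintype (Γ ⧸ C) := Fintype.ofFinite _
  haveI hfin : Module.Finite (ZMod p) (homRep (permRep (ZMod p) C) A) :=
    inferInstanceAs (Module.Finite (ZMod p) ((Γ ⧸ C → ZMod p) →ₗ[ZMod p] A))
  rw [repCharpoly_eq]
  have h1 : LinearMap.charpoly ((homRep (permRep (ZMod p) C) A).ρ γ)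
      = LinearMap.charpoly (Ind.twistedShift (A.ρ γ) (fun x : Γ ⧸ C => γ⁻¹ • x)) := by
    rw [← Ind.homRep_conj C A γ]
    exact (LinearEquiv.charpoly_conj (Ind.homPiEquiv (k := ZMod p) (Γ ⧸ C) A) _).symm
  rw [h1, Ind.charpoly_twistedShift]
  refine finprod_congr fun ω => ?_
  rw [repCharpoly_eq, map_pow]
  rfl

end Fermat.Agent.S56.EC
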