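/-
S56, wall W2-EC, leaf (B) — owner: helper58.  ASSEMBLY (sorry-free in this file).

Brauer–Artin induction for `K₀(𝔽_p[Γ]) ⊗ ℚ` (pure algebra), route X (characteristic
polynomials, no Brauer characters):
 (B1) `brauerNesbitt`  (EC/Brauer/BN.lean, helper88);
 (B2) `indCharpoly`    (EC/Brauer/Ind.lean, helper7);
 (B3) `artinRefined`   (EC/Brauer/ArtinRefined.lean, helper71);
 (B4) `brauerInduction_of` (EC/Brauer/Asm.lean, helper58: DONE).
Route L (helper67: permutation lattices + helper54's lattice lemma) runs in parallel; whichever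
is complete first is wired here.
-/
import Fermat.Agent.S56.W2.EC.Brauer.Asm
import Fermat.Agent.S56.W2.EC.Brauer.BN
import Fermat.Agent.S56.W2.EC.Brauer.Ind
import Fermat.Agent.S56.W2.EC.Brauer.ArtinRefined

set_option autoImplicit false

namespace Fermat.Agent.S56.EC

open Fermat.Agent.F4

/-- **(B)** Brauer–Artin induction. -/
theorem brauerInduction (p : ℕ) [Fact p.Prime] (Γ : Type) [Group Γ] [Finite Γ] :
    BrauerInduction p Γ :=
  brauerInduction_of (brauerNesbitt p Γ) (indCharpoly p Γ) (artinRefined p Γ)

end Fermat.Agent.S56.EC
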