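/-
S56, wall W2-EC, leaf (B) Brauer induction, route L (lattice route of helper67), piece P4 (helper87):
the `p`-part of a cyclic subgroup.

Main results (`Γ` finite, `d` additive on finite `𝔽_p[Γ]`-modules):
* `IsAdditiveFn.pp_eq_zero_of_subsingleton`, `IsAdditiveFn.pp_eq_of_bijective` : basics;
* `ppSubRep A W hW` : the subrepresentation on a stable submodule;
* `IsAdditiveFn.pp_eq_mul_of_nilpotent` : if `t` is an equivariant endomorphism of `A` with `t ^ q = 0`
  and `ker t ≤ range (t ^ (q - 1))`, then `d A = q * d (ker t)`;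
* `ppFunRep X A` : the module of functions `X → A` on a `Γ`-set `X`, and
  `IsAdditiveFn.pp_d_homRep_permRep` : `d (Hom(𝔽_p[Γ/U], A)) = d (Γ/U → A)`;
* `IsAdditiveFn.pp_d_funRep_quot` : `d (Γ/B' → A) = p^e * d (Γ/B → A)` if `B/B'` is cyclic of order `p^e`;
* `IsAdditiveFn.exists_pPrime_sub` : for `B` cyclic, `B'` its `p'`-part:
  `d (Hom(𝔽_p[Γ/B'], A)) = p^e * d (Hom(𝔽_p[Γ/B], A))`;
* `IsAdditiveFn.d_homRep_permRep_cyclic` : if `d` kills `Hom(𝔽_p[Γ/C], A)` for all cyclic `C` of order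
  prime to `p`, then it kills `Hom(𝔽_p[Γ/B], A)` for all cyclic `B`.
-/
import Fermat.Agent.S56.W2.EC.Defs

set_option autoImplicit false

namespace Fermat.Agent.S56.EC

open Fermat.Agent.F4

variable {p : ℕ} [Fact p.Prime] {Γ : Type} [Group Γ]

/-! ### Basic properties of additive functions -/

/-- The zero representation. -/
noncomputable abbrev ppZeroRep (p : ℕ) [Fact p.Prime] (Γ : Type) [Group Γ] : Rep.{0} (ZMod p) Γ :=
  Rep.of (1 : Representation (ZMod p) Γ PUnit)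

instance ppZeroRep_subsingleton : Subsingleton (ppZeroRep p Γ) :=
  inferInstanceAs (Subsingleton PUnit)

/-- An additive function vanishes on trivial modules. -/
theorem IsAdditiveFn.pp_eq_zero_of_subsingleton {d : Rep.{0} (ZMod p) Γ → ℤ} (hd : IsAdditiveFn d)
    (A : Rep.{0} (ZMod p) Γ) [Subsingleton A] : d A = 0 := by
  have h := hd A A A 0 0
    (Module.Finite.of_finite) (fun _ _ => Subsingleton.elim _ _)
    (fun _ _ => Subsingleton.elim _ _) (fun _ _ _ => Subsingleton.elim _ _)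
    (fun b => ⟨b, Subsingleton.elim _ _⟩) (by
      ext x
      simp only [LinearMap.mem_range, LinearMap.mem_ker]
      exact ⟨fun _ => Subsingleton.elim _ _, fun _ => ⟨x, Subsingleton.elim _ _⟩⟩)
  linarith

/-- An additive function is invariant under equivariant bijective linear maps. -/
theorem IsAdditiveFn.pp_eq_of_bijective {d : Rep.{0} (ZMod p) Γ → ℤ} (hd : IsAdditiveFn d)
    (A B : Rep.{0} (ZMod p) Γ) (hB : Module.Finite (ZMod p) B) (e : A →ₗ[ZMod p] B)
    (he : ∀ (γ : Γ) (x : A), e (A.ρ γ x) = B.ρ γ (e x)) (hbij : Function.Bijective e) :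
    d A = d B := by
  have h := hd A B (ppZeroRep p Γ) e 0 hB he (fun _ _ => Subsingleton.elim _ _) hbij.1
    (fun b => ⟨0, Subsingleton.elim _ _⟩) (by
      rw [LinearMap.range_eq_top.mpr hbij.2]
      ext x
      exact ⟨fun _ => LinearMap.mem_ker.mpr (Subsingleton.elim _ _), fun _ => trivial⟩)
  rw [hd.pp_eq_zero_of_subsingleton (ppZeroRep p Γ)] at h
  linarith

/-! ### Subrepresentations -/

/-- The representation on a stable submodule. -/
noncomputable def ppSubRepr (A : Rep.{0} (ZMod p) Γ) (W : Submodule (ZMod p) A)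
    (hW : ∀ (g : Γ), ∀ x ∈ W, A.ρ g x ∈ W) : Representation (ZMod p) Γ W where
  toFun g := (A.ρ g).restrict (hW g)
  map_one' := by
    ext x
    simp
  map_mul' g h := by
    ext x
    simp

/-- The subrepresentation on a stable submodule, as an object of `Rep`. -/
noncomputable abbrev ppSubRep (A : Rep.{0} (ZMod p) Γ) (W : Submodule (ZMod p) A)
    (hW : ∀ (g : Γ), ∀ x ∈ W, A.ρ g x ∈ W) : Rep.{0} (ZMod p) Γ :=
  Rep.of (ppSubRepr A W hW)

lemma ppSubRep_ρ_coe (A : Rep.{0} (ZMod p) Γ) (W : Submodule (ZMod p) A)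
    (hW : ∀ (g : Γ), ∀ x ∈ W, A.ρ g x ∈ W) (g : Γ) (x : W) :
    (((ppSubRep A W hW).ρ g x : W) : A) = A.ρ g (x : A) := rfl

/-! ### The nilpotent filtration -/

section Nilpotent

variable {d : Rep.{0} (ZMod p) Γ → ℤ} (A K : Rep.{0} (ZMod p) Γ)
  (t : A →ₗ[ZMod p] A) (ht : ∀ (g : Γ) (x : A), t (A.ρ g x) = A.ρ g (t x))

include ht in
lemma pp_pow_comm_ρ (i : ℕ) (g : Γ) (x : A) : (t ^ i) (A.ρ g x) = A.ρ g ((t ^ i) x) := by
  induction i generalizing x with
  | zero => simp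
  | succ i ih =>
    rw [pow_succ, Module.End.mul_apply, Module.End.mul_apply, ht, ih]

include ht in
lemma pp_range_pow_stable (i : ℕ) (g : Γ) (x : A) (hx : x ∈ LinearMap.range (t ^ i)) :
    A.ρ g x ∈ LinearMap.range (t ^ i) := by
  obtain ⟨y, rfl⟩ := hx
  exact ⟨A.ρ g y, pp_pow_comm_ρ A t ht i g y⟩

lemma pp_range_pow_anti {i j : ℕ} (hij : i ≤ j) :
    LinearMap.range (t ^ j) ≤ LinearMap.range (t ^ i) := by
  rintro x ⟨y, rfl⟩
  refine ⟨(t ^ (j - i)) y, ?_⟩
  rw [← Module.End.mul_apply, ← pow_add, Nat.add_sub_cancel' hij]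

include ht in
theorem IsAdditiveFn.pp_step_of_nilpotent (hd : IsAdditiveFn d)
    (hA : Module.Finite (ZMod p) A)
    (ι : K →ₗ[ZMod p] A) (hι : ∀ (g : Γ) (x : K), ι (K.ρ g x) = A.ρ g (ι x))
    (hinj : Function.Injective ι) (hker : LinearMap.range ι = LinearMap.ker t)
    (i : ℕ) (hi : LinearMap.ker t ≤ LinearMap.range (t ^ i)) :
    d (ppSubRep A (LinearMap.range (t ^ i)) (pp_range_pow_stable A t ht i)) =
      d K + d (ppSubRep A (LinearMap.range (t ^ (i + 1))) (pp_range_pow_stable A t ht (i + 1))) := by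
  have hmem : ∀ x : K, ι x ∈ LinearMap.range (t ^ i) := fun x =>
    hi (hker ▸ LinearMap.mem_range_self ι x)
  have hmem' : ∀ x : LinearMap.range (t ^ i),
      (t.comp (LinearMap.range (t ^ i)).subtype) x ∈ LinearMap.range (t ^ (i + 1)) := by
    rintro ⟨x, y, rfl⟩
    refine ⟨y, ?_⟩
    rw [pow_succ', Module.End.mul_apply]
    rfl
  have hfin : Module.Finite (ZMod p) (ppSubRep A (LinearMap.range (t ^ i))
      (pp_range_pow_stable A t ht i)) :=
    inferInstanceAs (Module.Finite (ZMod p) (LinearMap.range (t ^ i)))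
  refine hd K (ppSubRep A (LinearMap.range (t ^ i)) (pp_range_pow_stable A t ht i))
    (ppSubRep A (LinearMap.range (t ^ (i + 1))) (pp_range_pow_stable A t ht (i + 1)))
    (ι.codRestrict _ hmem) (LinearMap.codRestrict _ _ hmem') hfin ?_ ?_ ?_ ?_ ?_
  · intro g x
    apply Subtype.ext
    exact hι g x
  · intro g x
    apply Subtype.ext
    exact ht g x
  · intro x y hxy
    apply hinj
    exact congrArg Subtype.val hxy
  · rintro ⟨y, z, rfl⟩
    refine ⟨⟨(t ^ i) z, z, rfl⟩, ?_⟩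
    apply Subtype.ext
    show t ((t ^ i) z) = (t ^ (i + 1)) z
    rw [pow_succ', Module.End.mul_apply]
  · ext x
    constructor
    · rintro ⟨y, rfl⟩
      rw [LinearMap.mem_ker]
      apply Subtype.ext
      show t (ι y) = 0
      have : ι y ∈ LinearMap.ker t := hker ▸ LinearMap.mem_range_self ι y
      exact this
    · intro hx
      rw [LinearMap.mem_ker] at hx
      have hx' : t (x : A) = 0 := congrArg Subtype.val hx
      have : (x : A) ∈ LinearMap.range ι := by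
        rw [hker]
        exact hx'
      obtain ⟨y, hy⟩ := this
      exact ⟨y, Subtype.ext hy⟩

include ht in
/-- If `t` is an equivariant endomorphism of `A` with `t ^ q = 0` and `ker t ≤ range (t ^ (q-1))`
(i.e. `A` is free over `𝔽_p[t]/(t^q)`), then `d A = q * d (ker t)`. -/
theorem IsAdditiveFn.pp_eq_mul_of_nilpotent (hd : IsAdditiveFn d)
    (hA : Module.Finite (ZMod p) A)
    (ι : K →ₗ[ZMod p] A) (hι : ∀ (g : Γ) (x : K), ι (K.ρ g x) = A.ρ g (ι x))
    (hinj : Function.Injective ι) (hker : LinearMap.range ι = LinearMap.ker t)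
    (q : ℕ) (hq : 0 < q) (htq : t ^ q = 0)
    (hnorm : LinearMap.ker t ≤ LinearMap.range (t ^ (q - 1))) :
    d A = q * d K := by
  have key : ∀ i : ℕ, i ≤ q →
      d (ppSubRep A (LinearMap.range (t ^ 0)) (pp_range_pow_stable A t ht 0)) =
        i * d K + d (ppSubRep A (LinearMap.range (t ^ i)) (pp_range_pow_stable A t ht i)) := by
    intro i
    induction i with
    | zero => intro _; simp
    | succ i ih =>
      intro hi
      have h1 := ih (by omega)
      have h2 := hd.pp_step_of_nilpotent A K t ht hA ι hι hinj hker i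
        (hnorm.trans (pp_range_pow_anti A t (by omega)))
      rw [h1, h2]
      push_cast
      ring
  have h0 : d (ppSubRep A (LinearMap.range (t ^ 0)) (pp_range_pow_stable A t ht 0)) = d A := by
    refine hd.pp_eq_of_bijective _ A hA (LinearMap.range (t ^ 0)).subtype (fun g x => rfl)
      ⟨Subtype.val_injective, fun y => ⟨⟨y, y, by simp⟩, rfl⟩⟩
  have hq0 : d (ppSubRep A (LinearMap.range (t ^ q)) (pp_range_pow_stable A t ht q)) = 0 := by
    have : Subsingleton (ppSubRep A (LinearMap.range (t ^ q)) (pp_range_pow_stable A t ht q)) := by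
      refine ⟨fun x y => ?_⟩
      have hx : ∀ z : LinearMap.range (t ^ q), (z : A) = 0 := by
        rintro ⟨z, w, rfl⟩
        rw [htq]
        rfl
      apply Subtype.ext
      rw [hx x, hx y]
    exact hd.pp_eq_zero_of_subsingleton _
  have := key q le_rfl
  rw [h0, hq0] at this
  linarith

end Nilpotent

/-! ### Function modules -/

section FunRep

variable (X : Type) [MulAction Γ X] (A : Rep.{0} (ZMod p) Γ)

/-- The representation on `X → A`, `(g F)(x) = g (F (g⁻¹ x))`. -/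
noncomputable def ppFunRepr : Representation (ZMod p) Γ (X → A) where
  toFun g :=
    { toFun := fun F x => A.ρ g (F (g⁻¹ • x))
      map_add' := fun F G => by
        funext x
        simp
      map_smul' := fun c F => by
        funext x
        simp }
  map_one' := by
    refine LinearMap.ext fun F => funext fun x => ?_
    simp
  map_mul' g h := by
    refine LinearMap.ext fun F => funext fun x => ?_
    simp [mul_smul]

/-- The module of functions `X → A` on a `Γ`-set `X`. -/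
noncomputable abbrev ppFunRep : Rep.{0} (ZMod p) Γ := Rep.of (ppFunRepr X A)

lemma ppFunRep_ρ_apply (g : Γ) (F : X → A) (x : X) :
    ((ppFunRep X A).ρ g F : X → A) x = A.ρ g (F (g⁻¹ • x)) := rfl

instance ppFunRep_finite [Finite X] [Module.Finite (ZMod p) A] :
    Module.Finite (ZMod p) (ppFunRep X A) :=
  inferInstanceAs (Module.Finite (ZMod p) (X → A))

end FunRep

section HomPerm

variable [Finite Γ] (U : Subgroup Γ) (A : Rep.{0} (ZMod p) Γ)

open Classical in
/-- Evaluation on the indicator functions: `Hom(𝔽_p[Γ/U], A) → (Γ/U → A)`. -/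
noncomputable def ppHomPermEval :
    homRep (permRep (ZMod p) U) A →ₗ[ZMod p] ppFunRep (Γ ⧸ U) A where
  toFun φ := fun x => (φ : ((Γ ⧸ U) → ZMod p) →ₗ[ZMod p] A) (Pi.single x 1)
  map_add' _ _ := rfl
  map_smul' _ _ := rfl

omit [Finite Γ] in
open Classical in
lemma ppHomPermEval_apply (φ : ((Γ ⧸ U) → ZMod p) →ₗ[ZMod p] A) (x : Γ ⧸ U) :
    (ppHomPermEval U A φ : (Γ ⧸ U) → A) x = φ (Pi.single x 1) := rfl

omit [Finite Γ] in
open Classical in
lemma pp_permRep_ρ_single (g : Γ) (x : Γ ⧸ U) :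
    ((permRep (ZMod p) U).ρ g (Pi.single x (1 : ZMod p)) : (Γ ⧸ U) → ZMod p) =
      Pi.single (g • x) 1 := by
  funext y
  rw [permRep_ρ_apply]
  by_cases h : y = g • x
  · subst h
    simp
  · rw [Pi.single_eq_of_ne h, Pi.single_eq_of_ne]
    intro h'
    apply h
    rw [← h', smul_inv_smul]

lemma ppHomPermEval_equivariant (g : Γ) (φ : homRep (permRep (ZMod p) U) A) :
    ppHomPermEval U A ((homRep (permRep (ZMod p) U) A).ρ g φ) =
      (ppFunRep (Γ ⧸ U) A).ρ g (ppHomPermEval U A φ) := by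
  classical
  funext x
  rw [ppFunRep_ρ_apply, ppHomPermEval_apply, ppHomPermEval_apply, homRep_ρ_apply, pp_permRep_ρ_single]

lemma ppHomPermEval_bijective : Function.Bijective (ppHomPermEval U A) := by
  classical
  constructor
  · intro φ ψ h
    refine LinearMap.pi_ext fun i c => ?_
    have hc : (Pi.single i c : (Γ ⧸ U) → ZMod p) = c • Pi.single i (1 : ZMod p) := by
      rw [← Pi.single_smul, smul_eq_mul, mul_one]
    rw [hc, map_smul, map_smul]
    exact congrArg (c • ·) (congrFun h i)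
  · intro F
    refine ⟨(Pi.basisFun (ZMod p) (Γ ⧸ U)).constr (ZMod p) F, ?_⟩
    funext x
    rw [ppHomPermEval_apply, ← Pi.basisFun_apply, Module.Basis.constr_basis]

/-- `d (Hom(𝔽_p[Γ/U], A)) = d (Γ/U → A)`. -/
theorem IsAdditiveFn.pp_d_homRep_permRep {d : Rep.{0} (ZMod p) Γ → ℤ} (hd : IsAdditiveFn d)
    (hA : Module.Finite (ZMod p) A) :
    d (homRep (permRep (ZMod p) U) A) = d (ppFunRep (Γ ⧸ U) A) :=
  hd.pp_eq_of_bijective _ _ (ppFunRep_finite (Γ ⧸ U) A) (ppHomPermEval U A)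
    (ppHomPermEval_equivariant U A) (ppHomPermEval_bijective U A)

end HomPerm

/-! ### Right translation on `Γ ⧸ B'` -/

section RightTranslation

variable (B' : Subgroup Γ) (b : Γ) (hN : ∀ β ∈ B', b⁻¹ * β * b ∈ B')

/-- Right translation by `b` on `Γ ⧸ B'` (`b` normalizes `B'`). -/
def ppRmulQ : Γ ⧸ B' → Γ ⧸ B' :=
  Quotient.map' (fun x => x * b) (fun x y h => by
    rw [QuotientGroup.leftRel_apply] at h ⊢
    have h' := hN _ h
    have e : (x * b)⁻¹ * (y * b) = b⁻¹ * (x⁻¹ * y) * b := by group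
    rw [e]
    exact h')

lemma ppRmulQ_mk (x : Γ) : ppRmulQ B' b hN (x : Γ ⧸ B') = ((x * b : Γ) : Γ ⧸ B') := rfl

lemma pp_smul_rmulQ (g : Γ) (x : Γ ⧸ B') : g • ppRmulQ B' b hN x = ppRmulQ B' b hN (g • x) := by
  induction x using QuotientGroup.induction_on with
  | H x =>
    show ((g * (x * b) : Γ) : Γ ⧸ B') = (((g * x) * b : Γ) : Γ ⧸ B')
    rw [mul_assoc]

lemma ppRmulQ_iterate (j : ℕ) (x : Γ) :
    (ppRmulQ B' b hN)^[j] (x : Γ ⧸ B') = ((x * b ^ j : Γ) : Γ ⧸ B') := by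
  induction j generalizing x with
  | zero => simp
  | succ j ih => rw [Function.iterate_succ_apply, ppRmulQ_mk, ih, pow_succ', mul_assoc]

variable (A : Rep.{0} (ZMod p) Γ)

/-- The operator `F ↦ F (· b)` on `Γ ⧸ B' → A`. -/
noncomputable def ppSOp : ppFunRep (Γ ⧸ B') A →ₗ[ZMod p] ppFunRep (Γ ⧸ B') A :=
  LinearMap.funLeft (ZMod p) A (ppRmulQ B' b hN)

lemma ppSOp_apply (F : (Γ ⧸ B') → A) (x : Γ ⧸ B') :
    (ppSOp B' b hN A F : (Γ ⧸ B') → A) x = F (ppRmulQ B' b hN x) := rfl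

lemma ppSOp_equivariant (g : Γ) (F : ppFunRep (Γ ⧸ B') A) :
    ppSOp B' b hN A ((ppFunRep (Γ ⧸ B') A).ρ g F) = (ppFunRep (Γ ⧸ B') A).ρ g (ppSOp B' b hN A F) := by
  funext x
  rw [ppSOp_apply, ppFunRep_ρ_apply, ppFunRep_ρ_apply, ppSOp_apply, pp_smul_rmulQ]

lemma ppSOp_pow_apply (j : ℕ) (F : (Γ ⧸ B') → A) (x : Γ ⧸ B') :
    (((ppSOp B' b hN A) ^ j) F : (Γ ⧸ B') → A) x = F ((ppRmulQ B' b hN)^[j] x) := by
  induction j generalizing F with
  | zero => simp
  | succ j ih =>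
    rw [pow_succ, Module.End.mul_apply, ih, ppSOp_apply, Function.iterate_succ_apply']

end RightTranslation

/-! ### Two polynomial identities in characteristic `p` -/

section PolyId

open Polynomial

lemma pp_X_sub_one_pow_ppow (e : ℕ) :
    ((X : (ZMod p)[X]) - 1) ^ (p ^ e) = X ^ (p ^ e) - 1 := by
  rw [sub_pow_char_pow, one_pow]

lemma pp_X_sub_one_pow_pred (e : ℕ) :
    ((X : (ZMod p)[X]) - 1) ^ (p ^ e - 1) = ∑ j ∈ Finset.range (p ^ e), X ^ j := by
  have hpos : 1 ≤ p ^ e := Nat.one_le_pow _ _ (Fact.out : p.Prime).pos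
  have h1 : ((X : (ZMod p)[X]) - 1) * (X - 1) ^ (p ^ e - 1) =
      (X - 1) * ∑ j ∈ Finset.range (p ^ e), X ^ j := by
    rw [← pow_succ', Nat.sub_add_cancel hpos, pp_X_sub_one_pow_ppow, mul_geom_sum]
  have hne : (X : (ZMod p)[X]) - 1 ≠ 0 := by
    have := X_sub_C_ne_zero (1 : ZMod p)
    rwa [map_one] at this
  exact mul_left_cancel₀ hne h1

variable {V : Type} [AddCommGroup V] [Module (ZMod p) V]

lemma pp_end_sub_one_pow_ppow (s : Module.End (ZMod p) V) (e : ℕ) (hs : s ^ (p ^ e) = 1) :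
    (s - 1) ^ (p ^ e) = 0 := by
  have h := congrArg (aeval s) (pp_X_sub_one_pow_ppow (p := p) e)
  simp only [map_pow, map_sub, aeval_X, map_one] at h
  rw [h, hs, sub_self]

lemma pp_end_sub_one_pow_pred (s : Module.End (ZMod p) V) (e : ℕ) :
    (s - 1) ^ (p ^ e - 1) = ∑ j ∈ Finset.range (p ^ e), s ^ j := by
  have h := congrArg (aeval s) (pp_X_sub_one_pow_pred (p := p) e)
  simpa only [map_pow, map_sub, aeval_X, map_one, map_sum] using h

end PolyId

/-! ### The quotient step `Γ ⧸ B' → Γ ⧸ B` -/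

section QuotStep

variable (B' B : Subgroup Γ) (hle : B' ≤ B)

/-- The projection `Γ ⧸ B' → Γ ⧸ B`. -/
def ppProjQ : Γ ⧸ B' → Γ ⧸ B :=
  Quotient.map' id (fun x y h => by
    rw [QuotientGroup.leftRel_apply] at h ⊢
    exact hle h)

lemma ppProjQ_mk (x : Γ) : ppProjQ B' B hle (x : Γ ⧸ B') = (x : Γ ⧸ B) := rfl

lemma ppProjQ_surjective : Function.Surjective (ppProjQ B' B hle) := by
  intro y
  induction y using QuotientGroup.induction_on with
  | H x => exact ⟨(x : Γ ⧸ B'), rfl⟩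

lemma ppProjQ_smul (g : Γ) (x : Γ ⧸ B') : ppProjQ B' B hle (g • x) = g • ppProjQ B' B hle x := by
  induction x using QuotientGroup.induction_on with
  | H x => rfl

variable (b : Γ) (e : ℕ) (hb : b ∈ B) (hN : ∀ β ∈ B', b⁻¹ * β * b ∈ B')
  (H1 : ∀ β ∈ B, ∃ j < p ^ e, (b ^ j)⁻¹ * β ∈ B')
  (H2 : ∀ j : ℕ, b ^ j ∈ B' ↔ p ^ e ∣ j)

include hb in
lemma ppProjQ_rmulQ (x : Γ ⧸ B') : ppProjQ B' B hle (ppRmulQ B' b hN x) = ppProjQ B' B hle x := by
  induction x using QuotientGroup.induction_on with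
  | H x =>
    rw [ppRmulQ_mk, ppProjQ_mk, ppProjQ_mk, QuotientGroup.eq]
    have e1 : (x * b)⁻¹ * x = b⁻¹ := by group
    rw [e1]
    exact B.inv_mem hb

include hb in
lemma ppProjQ_iterate (j : ℕ) (x : Γ ⧸ B') :
    ppProjQ B' B hle ((ppRmulQ B' b hN)^[j] x) = ppProjQ B' B hle x := by
  induction j with
  | zero => rfl
  | succ j ih => rw [Function.iterate_succ_apply', ppProjQ_rmulQ B' B hle b hb hN, ih]

omit [Fact p.Prime] in
include H1 in
lemma pp_exists_iterate_eq (x y : Γ ⧸ B') (h : ppProjQ B' B hle x = ppProjQ B' B hle y) :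
    ∃ j < p ^ e, (ppRmulQ B' b hN)^[j] x = y := by
  induction x using QuotientGroup.induction_on with
  | H g =>
    induction y using QuotientGroup.induction_on with
    | H h' =>
      rw [ppProjQ_mk, ppProjQ_mk, QuotientGroup.eq] at h
      obtain ⟨j, hj, hj'⟩ := H1 _ h
      refine ⟨j, hj, ?_⟩
      rw [ppRmulQ_iterate, QuotientGroup.eq]
      have e1 : (g * b ^ j)⁻¹ * h' = (b ^ j)⁻¹ * (g⁻¹ * h') := by group
      rw [e1]
      exact hj'

omit [Fact p.Prime] in
include H2 in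
lemma pp_iterate_eq_unique (x : Γ ⧸ B') (j j' : ℕ) (hj : j < p ^ e) (hj' : j' < p ^ e)
    (h : (ppRmulQ B' b hN)^[j] x = (ppRmulQ B' b hN)^[j'] x) : j = j' := by
  induction x using QuotientGroup.induction_on with
  | H g =>
    rw [ppRmulQ_iterate, ppRmulQ_iterate, QuotientGroup.eq] at h
    have e1 : (g * b ^ j)⁻¹ * (g * b ^ j') = (b ^ j)⁻¹ * b ^ j' := by group
    rw [e1] at h
    rcases Nat.le_total j j' with hle' | hle'
    · have e2 : (b ^ j)⁻¹ * b ^ j' = b ^ (j' - j) := by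
        rw [inv_mul_eq_iff_eq_mul, ← pow_add, Nat.add_sub_cancel' hle']
      rw [e2, H2] at h
      have := Nat.eq_zero_of_dvd_of_lt h (by omega)
      omega
    · have e2 : (b ^ j)⁻¹ * b ^ j' = (b ^ (j - j'))⁻¹ := by
        have e3 : b ^ j = b ^ j' * b ^ (j - j') := by
          rw [← pow_add, Nat.add_sub_cancel' hle']
        rw [e3]
        group
      rw [e2, inv_mem_iff, H2] at h
      have := Nat.eq_zero_of_dvd_of_lt h (by omega)
      omega

include H2 in
lemma ppSOp_pow_ppow (A : Rep.{0} (ZMod p) Γ) : (ppSOp B' b hN A) ^ (p ^ e) = 1 := by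
  refine LinearMap.ext fun F => funext fun x => ?_
  rw [ppSOp_pow_apply, Module.End.one_apply]
  congr 1
  induction x using QuotientGroup.induction_on with
  | H g =>
    rw [ppRmulQ_iterate, QuotientGroup.eq]
    have e1 : (g * b ^ p ^ e)⁻¹ * g = (b ^ p ^ e)⁻¹ := by group
    rw [e1, inv_mem_iff, H2]

variable (A : Rep.{0} (ZMod p) Γ)

lemma pp_mem_ker_sOp_sub_one (F : (Γ ⧸ B') → A) :
    F ∈ LinearMap.ker (ppSOp B' b hN A - 1) ↔ ∀ x, F (ppRmulQ B' b hN x) = F x := by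
  rw [LinearMap.mem_ker, LinearMap.sub_apply, Module.End.one_apply, sub_eq_zero]
  constructor
  · intro h x
    exact congrFun h x
  · intro h
    funext x
    exact h x

include hle hb H1 H2 in
lemma pp_ker_le_range_norm :
    LinearMap.ker (ppSOp B' b hN A - 1) ≤ LinearMap.range ((ppSOp B' b hN A - 1) ^ (p ^ e - 1)) := by
  classical
  intro F hF
  rw [pp_mem_ker_sOp_sub_one] at hF
  have hFi : ∀ (j : ℕ) (x : Γ ⧸ B'), F ((ppRmulQ B' b hN)^[j] x) = F x := by
    intro j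
    induction j with
    | zero => intro x; rfl
    | succ j ih => intro x; rw [Function.iterate_succ_apply', hF, ih]
  let rep : Γ ⧸ B' → Γ ⧸ B' := fun x =>
    Function.surjInv (ppProjQ_surjective B' B hle) (ppProjQ B' B hle x)
  have hrep : ∀ x, ppProjQ B' B hle (rep x) = ppProjQ B' B hle x := fun x =>
    Function.surjInv_eq _ _
  have hrepi : ∀ (j : ℕ) (x : Γ ⧸ B'), rep ((ppRmulQ B' b hN)^[j] x) = rep x := by
    intro j x
    show Function.surjInv (ppProjQ_surjective B' B hle)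
        (ppProjQ B' B hle ((ppRmulQ B' b hN)^[j] x)) =
      Function.surjInv (ppProjQ_surjective B' B hle) (ppProjQ B' B hle x)
    rw [ppProjQ_iterate B' B hle b hb hN]
  let G : (Γ ⧸ B') → A := fun x => if x = rep x then F x else 0
  refine ⟨G, ?_⟩
  rw [pp_end_sub_one_pow_pred]
  funext x
  rw [LinearMap.sum_apply, Finset.sum_apply]
  obtain ⟨j0, hj0, hj0'⟩ := pp_exists_iterate_eq B' B hle b e hN H1 x (rep x) (hrep x).symm
  rw [Finset.sum_eq_single j0]
  · rw [ppSOp_pow_apply]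
    show (if (ppRmulQ B' b hN)^[j0] x = rep ((ppRmulQ B' b hN)^[j0] x) then
      F ((ppRmulQ B' b hN)^[j0] x) else 0) = F x
    rw [if_pos (by rw [hrepi, hj0']), hFi]
  · intro j hj hne
    rw [ppSOp_pow_apply]
    show (if (ppRmulQ B' b hN)^[j] x = rep ((ppRmulQ B' b hN)^[j] x) then
      F ((ppRmulQ B' b hN)^[j] x) else 0) = 0
    rw [if_neg]
    intro h
    apply hne
    refine pp_iterate_eq_unique B' b e hN H2 x j j0 (Finset.mem_range.mp hj) hj0 ?_
    rw [hj0', h, hrepi]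
  · intro h
    exact absurd (Finset.mem_range.mpr hj0) h

/-- Pull-back of functions along `Γ ⧸ B' → Γ ⧸ B`. -/
noncomputable def ppPullQ : ppFunRep (Γ ⧸ B) A →ₗ[ZMod p] ppFunRep (Γ ⧸ B') A :=
  LinearMap.funLeft (ZMod p) A (ppProjQ B' B hle)

lemma ppPullQ_apply (G : (Γ ⧸ B) → A) (x : Γ ⧸ B') :
    (ppPullQ B' B hle A G : (Γ ⧸ B') → A) x = G (ppProjQ B' B hle x) := rfl

lemma ppPullQ_equivariant (g : Γ) (G : ppFunRep (Γ ⧸ B) A) :
    ppPullQ B' B hle A ((ppFunRep (Γ ⧸ B) A).ρ g G) =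
      (ppFunRep (Γ ⧸ B') A).ρ g (ppPullQ B' B hle A G) := by
  funext x
  rw [ppPullQ_apply, ppFunRep_ρ_apply, ppFunRep_ρ_apply, ppPullQ_apply, ppProjQ_smul]

lemma ppPullQ_injective : Function.Injective (ppPullQ B' B hle A) :=
  LinearMap.funLeft_injective_of_surjective _ _ _ (ppProjQ_surjective B' B hle)

include hb H1 in
lemma pp_range_pullQ :
    LinearMap.range (ppPullQ B' B hle A) = LinearMap.ker (ppSOp B' b hN A - 1) := by
  ext F
  rw [pp_mem_ker_sOp_sub_one]
  constructor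
  · rintro ⟨G, rfl⟩ x
    rw [ppPullQ_apply, ppPullQ_apply, ppProjQ_rmulQ B' B hle b hb hN]
  · intro hF
    have hFi : ∀ (j : ℕ) (x : Γ ⧸ B'), F ((ppRmulQ B' b hN)^[j] x) = F x := by
      intro j
      induction j with
      | zero => intro x; rfl
      | succ j ih => intro x; rw [Function.iterate_succ_apply', hF, ih]
    refine ⟨fun y => F (Function.surjInv (ppProjQ_surjective B' B hle) y), ?_⟩
    funext x
    rw [ppPullQ_apply]
    obtain ⟨j0, -, hj0'⟩ := pp_exists_iterate_eq B' B hle b e hN H1 x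
      (Function.surjInv (ppProjQ_surjective B' B hle) (ppProjQ B' B hle x))
      (Function.surjInv_eq _ _).symm
    rw [← hj0', hFi]

include hle hb hN H1 H2 in
/-- `d (Γ/B' → A) = p^e · d (Γ/B → A)` when `B/B'` is cyclic of order `p^e`, generated by `b`. -/
theorem IsAdditiveFn.pp_d_funRep_quot [Finite Γ] {d : Rep.{0} (ZMod p) Γ → ℤ} (hd : IsAdditiveFn d)
    (hA : Module.Finite (ZMod p) A) :
    d (ppFunRep (Γ ⧸ B') A) = (p ^ e : ℕ) * d (ppFunRep (Γ ⧸ B) A) := by
  refine hd.pp_eq_mul_of_nilpotent (ppFunRep (Γ ⧸ B') A) (ppFunRep (Γ ⧸ B) A) (ppSOp B' b hN A - 1)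
    ?_ (ppFunRep_finite (Γ ⧸ B') A) (ppPullQ B' B hle A) (ppPullQ_equivariant B' B hle A)
    (ppPullQ_injective B' B hle A) (pp_range_pullQ B' B hle b e hb hN H1 A) (p ^ e)
    (Nat.pos_of_ne_zero (pow_ne_zero _ (Fact.out : p.Prime).ne_zero))
    (pp_end_sub_one_pow_ppow _ e (ppSOp_pow_ppow B' b e hN H2 A))
    (pp_ker_le_range_norm B' B hle b e hb hN H1 H2 A)
  intro g F
  rw [LinearMap.sub_apply, LinearMap.sub_apply, Module.End.one_apply, Module.End.one_apply,
    ppSOp_equivariant, map_sub]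

end QuotStep

/-! ### Cyclic subgroups: reduction to the `p'`-part -/

section Cyclic

variable [Finite Γ]

omit [Fact p.Prime] [Finite Γ] in
lemma pp_zpow_conj_self (c : Γ) (z : ℤ) : c⁻¹ * c ^ z * c = c ^ z := by
  have h1 : c⁻¹ * c ^ z * c = c ^ (-1 + z + 1) := by
    rw [zpow_add, zpow_add, zpow_neg_one, zpow_one]
  rw [h1]
  congr 1
  ring

/-- The `p'`-part `B'` of a cyclic subgroup `B`, with the data needed for the quotient step. -/
theorem pp_exists_pPrime_part (p : ℕ) [Fact p.Prime] (B : Subgroup Γ) (hB : IsCyclic B) :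
    ∃ (B' : Subgroup Γ) (b : Γ) (e : ℕ), B' ≤ B ∧ IsCyclic B' ∧ ¬ p ∣ Nat.card B' ∧ b ∈ B ∧
      (∀ β ∈ B', b⁻¹ * β * b ∈ B') ∧ (∀ β ∈ B, ∃ j < p ^ e, (b ^ j)⁻¹ * β ∈ B') ∧
      (∀ j : ℕ, b ^ j ∈ B' ↔ p ^ e ∣ j) := by
  have hp : p.Prime := Fact.out
  obtain ⟨⟨c, hc⟩, hgen⟩ := hB.exists_generator
  have hgen' : ∀ β ∈ B, ∃ i : ℤ, c ^ i = β := by
    intro β hβ
    obtain ⟨i, hi⟩ := Subgroup.mem_zpowers_iff.mp (hgen ⟨β, hβ⟩)
    refine ⟨i, ?_⟩
    have := congrArg Subtype.val hi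
    simpa using this
  have hn0 : orderOf c ≠ 0 := (orderOf_pos c).ne'
  obtain ⟨e, m, hm, hn⟩ := Nat.exists_eq_pow_mul_and_not_dvd hn0 p hp.ne_one
  have hq0 : p ^ e ≠ 0 := pow_ne_zero _ hp.ne_zero
  have hqpos : 0 < p ^ e := Nat.pos_of_ne_zero hq0
  have hpowz : ∀ k : ℤ, (c ^ (p ^ e)) ^ k = c ^ (((p ^ e : ℕ) : ℤ) * k) := fun k => by
    rw [zpow_mul, zpow_natCast]
  refine ⟨Subgroup.zpowers (c ^ (p ^ e)), c, e, ?_, inferInstance, ?_, hc, ?_, ?_, ?_⟩
  · exact Subgroup.zpowers_le.mpr (B.pow_mem hc _)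
  · rw [Nat.card_zpowers, orderOf_pow' c hq0, hn, Nat.gcd_eq_right (dvd_mul_right _ _),
      Nat.mul_div_cancel_left m hqpos]
    exact hm
  · intro β hβ
    obtain ⟨k, rfl⟩ := Subgroup.mem_zpowers_iff.mp hβ
    rw [hpowz, pp_zpow_conj_self, ← hpowz]
    exact Subgroup.mem_zpowers_iff.mpr ⟨k, rfl⟩
  · intro β hβ
    obtain ⟨i, rfl⟩ := hgen' β hβ
    have hqZ : (0 : ℤ) < ((p ^ e : ℕ) : ℤ) := by exact_mod_cast hqpos
    have h1 := Int.emod_lt_of_pos i hqZ
    have h2 := Int.emod_nonneg i hqZ.ne'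
    refine ⟨(i % ((p ^ e : ℕ) : ℤ)).toNat, by omega, ?_⟩
    have hj : c ^ (i % ((p ^ e : ℕ) : ℤ)).toNat = c ^ (i % ((p ^ e : ℕ) : ℤ)) := by
      rw [← zpow_natCast, Int.toNat_of_nonneg h2]
    rw [hj, ← zpow_neg, ← zpow_add]
    refine Subgroup.mem_zpowers_iff.mpr ⟨i / ((p ^ e : ℕ) : ℤ), ?_⟩
    rw [hpowz]
    congr 1
    have := Int.emod_add_mul_ediv i ((p ^ e : ℕ) : ℤ)
    linarith
  · intro j
    constructor
    · intro hj
      obtain ⟨k, hk⟩ := Subgroup.mem_zpowers_iff.mp hj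
      rw [hpowz] at hk
      have h1 : c ^ ((j : ℤ) - ((p ^ e : ℕ) : ℤ) * k) = 1 := by
        rw [zpow_sub, zpow_natCast, hk, mul_inv_cancel]
      have h2 := orderOf_dvd_iff_zpow_eq_one.mpr h1
      have h3 : (((p ^ e : ℕ) : ℤ)) ∣ (orderOf c : ℤ) := by
        rw [hn]
        exact_mod_cast dvd_mul_right (p ^ e) m
      have h4 : (((p ^ e : ℕ) : ℤ)) ∣ (j : ℤ) := by
        have h5 := h3.trans h2
        have h6 : (((p ^ e : ℕ) : ℤ)) ∣ ((p ^ e : ℕ) : ℤ) * k := dvd_mul_right _ _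
        have := dvd_add h5 h6
        simpa using this
      exact_mod_cast h4
    · rintro ⟨k, rfl⟩
      rw [pow_mul]
      exact Subgroup.pow_mem _ (Subgroup.mem_zpowers _) k

variable {d : Rep.{0} (ZMod p) Γ → ℤ}

/-- **P4, quantitative form**: for a cyclic subgroup `B` there are a cyclic subgroup `B' ≤ B` of
order prime to `p` and `e` with `d (Hom(𝔽_p[Γ/B'], A)) = p^e · d (Hom(𝔽_p[Γ/B], A))` for all `A`. -/
theorem IsAdditiveFn.exists_pPrime_sub (hd : IsAdditiveFn d) (B : Subgroup Γ) (hB : IsCyclic B) :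
    ∃ (B' : Subgroup Γ) (e : ℕ), B' ≤ B ∧ IsCyclic B' ∧ ¬ p ∣ Nat.card B' ∧
      ∀ A : Rep.{0} (ZMod p) Γ, Module.Finite (ZMod p) A →
        d (homRep (permRep (ZMod p) B') A) = (p ^ e : ℕ) * d (homRep (permRep (ZMod p) B) A) := by
  obtain ⟨B', b, e, hle, hcyc, hp', hb, hN, H1, H2⟩ := pp_exists_pPrime_part p B hB
  refine ⟨B', e, hle, hcyc, hp', fun A hA => ?_⟩
  rw [hd.pp_d_homRep_permRep B' A hA, hd.pp_d_homRep_permRep B A hA]
  exact hd.pp_d_funRep_quot B' B hle b e hb hN H1 H2 A hA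

/-- **P4**: an additive function which kills `Hom(𝔽_p[Γ/C], A)` for all cyclic `C` of order prime
to `p` kills `Hom(𝔽_p[Γ/B], A)` for all cyclic `B`. -/
theorem IsAdditiveFn.d_homRep_permRep_cyclic (hd : IsAdditiveFn d)
    (h : ∀ C : Subgroup Γ, IsCyclic C → ¬ p ∣ Nat.card C → ∀ A : Rep.{0} (ZMod p) Γ,
      Module.Finite (ZMod p) A → d (homRep (permRep (ZMod p) C) A) = 0) :
    ∀ B : Subgroup Γ, IsCyclic B → ∀ A : Rep.{0} (ZMod p) Γ,
      Module.Finite (ZMod p) A → d (homRep (permRep (ZMod p) B) A) = 0 := by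
  intro B hB A hA
  obtain ⟨B', e, -, hcyc, hp', hq⟩ := hd.exists_pPrime_sub B hB
  have h1 := h B' hcyc hp' A hA
  rw [hq A hA] at h1
  refine (mul_eq_zero.mp h1).resolve_left ?_
  exact_mod_cast pow_ne_zero e (Fact.out : p.Prime).ne_zero

end Cyclic

end Fermat.Agent.S56.EC
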