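/-
S56, wall W2-EC, step (B) Brauer induction, piece P1a (helper67): representations of a finite group
in characteristic zero with the same character admit an injective intertwining map.

Proof without any structure theory: take an intertwining map `T₀ : ρ → σ` of maximal rank,
`K = ker T₀`, `I = range T₀`, with complements `K'`, `I'` (Maschke).  Then
`χ_K = χ_ρ - χ_{K'} = χ_σ - χ_I = χ_{I'}`, so `dim Hom_Γ(K, I') = dim End_Γ(K)` (Mathlib:
`Representation.card_inv_mul_sum_char_mul_char_eq_finrank`).  If `K ≠ 0` there is `S ≠ 0` in
`Hom_Γ(K, I')`, and `T₀ + S ∘ pr_K` has a strictly bigger range.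
-/
import Mathlib

set_option autoImplicit false
set_option linter.unusedSectionVars false

noncomputable section

namespace Fermat.Agent.S56.EC

open Representation Module

section RepInj

variable {k Γ V W : Type*} [Field k] [CharZero k] [Group Γ] [Fintype Γ]
  [AddCommGroup V] [Module k V] [FiniteDimensional k V]
  [AddCommGroup W] [Module k W] [FiniteDimensional k W]

/-- Characters are additive on complementary subrepresentations. -/
theorem permEq_char_add (ρ : Representation k Γ V) (K K' : Subrepresentation ρ)
    (h : IsCompl K.toSubmodule K'.toSubmodule) (g : Γ) :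
    ρ.character g = K.toRepresentation.character g + K'.toRepresentation.character g := by
  classical
  let N : Bool → Submodule k V := fun b => bif b then K.toSubmodule else K'.toSubmodule
  have hint : DirectSum.IsInternal N := by
    rw [DirectSum.isInternal_submodule_iff_isCompl N (i := true) (j := false) (by decide)
      (by ext b; cases b <;> simp)]
    exact h
  have hf : ∀ b, Set.MapsTo (ρ g) (N b) (N b) := by
    intro b
    cases b
    · exact fun v hv => K'.apply_mem_toSubmodule g hv
    · exact fun v hv => K.apply_mem_toSubmodule g hv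
  have := LinearMap.trace_eq_sum_trace_restrict hint hf
  rw [Fintype.sum_bool] at this
  exact this

omit [CharZero k] [Fintype Γ] [FiniteDimensional k V] [FiniteDimensional k W] in
/-- Complementary subrepresentations give complementary submodules. -/
theorem permEq_isCompl_toSubmodule {ρ : Representation k Γ V} {K K' : Subrepresentation ρ}
    (h : IsCompl K K') : IsCompl K.toSubmodule K'.toSubmodule := by
  constructor
  · rw [disjoint_iff]
    have := h.inf_eq_bot
    rw [← Subrepresentation.toSubmodule_inf, this]
    rfl
  · rw [codisjoint_iff]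
    have := h.sup_eq_top
    rw [← Subrepresentation.toSubmodule_sup, this]
    rfl

omit [CharZero k] [Fintype Γ] in
/-- A complement of the kernel has the character of the range. -/
theorem permEq_char_compl_ker (ρ : Representation k Γ V) (σ : Representation k Γ W)
    (T : IntertwiningMap ρ σ) (K' : Subrepresentation ρ)
    (h : IsCompl T.ker.toSubmodule K'.toSubmodule) :
    K'.toRepresentation.character = T.range.toRepresentation.character := by
  let f : ↥K'.toSubmodule →ₗ[k] ↥T.range.toSubmodule :=
    (T.toLinearMap.rangeRestrict).comp K'.toSubmodule.subtype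
  have hf : ∀ x : ↥K'.toSubmodule, ((f x : ↥T.range.toSubmodule) : W) = T (x : V) := fun _ => rfl
  have hinj : Function.Injective f := by
    rw [← LinearMap.ker_eq_bot, LinearMap.ker_eq_bot']
    intro x hx
    have h1 : T (x : V) = 0 := by
      rw [← hf, hx]
      rfl
    have h2 : (x : V) ∈ T.ker.toSubmodule ⊓ K'.toSubmodule := ⟨h1, x.2⟩
    rw [h.inf_eq_bot] at h2
    exact Subtype.ext ((Submodule.mem_bot k).mp h2)
  have hsurj : Function.Surjective f := by
    rintro ⟨w, v, rfl⟩
    have hv := Submodule.projection_add_projection_eq_self h v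
    refine ⟨K'.toSubmodule.projectionOnto T.ker.toSubmodule h.symm v, Subtype.ext ?_⟩
    rw [hf]
    show T _ = T.toLinearMap v
    have h3 : T ((T.ker.toSubmodule.projection K'.toSubmodule h) v) = 0 :=
      Submodule.projection_apply_mem h v
    conv_rhs => rw [← hv]
    rw [map_add]
    show _ = T ((T.ker.toSubmodule.projection K'.toSubmodule h) v) + _
    rw [h3, zero_add]
    rfl
  let e : ↥K'.toSubmodule ≃ₗ[k] ↥T.range.toSubmodule := LinearEquiv.ofBijective f ⟨hinj, hsurj⟩
  refine char_iso (Representation.Equiv.mk e fun g => ?_)
  ext x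
  show T (ρ g (x : V)) = σ g (T (x : V))
  exact T.isIntertwining ρ σ g x

/-- The space of intertwining maps between finite-dimensional representations is
finite-dimensional. -/
theorem permEq_finite_intertwining (ρ : Representation k Γ V) (σ : Representation k Γ W) :
    Module.Finite k (IntertwiningMap ρ σ) :=
  Module.Finite.equiv (Representation.invariantsEquivIntertwiningMap ρ σ)

/-- `dim Hom_Γ(ρ, σ)` depends only on the characters. -/
theorem permEq_finrank_intertwining_congr {V' W' : Type*} [AddCommGroup V'] [Module k V']
    [FiniteDimensional k V'] [AddCommGroup W'] [Module k W'] [FiniteDimensional k W']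
    (ρ : Representation k Γ V) (σ : Representation k Γ W)
    (ρ' : Representation k Γ V') (σ' : Representation k Γ W')
    (hρ : ρ.character = ρ'.character) (hσ : σ.character = σ'.character) :
    finrank k (IntertwiningMap ρ σ) = finrank k (IntertwiningMap ρ' σ') := by
  have : Invertible (Nat.card Γ : k) :=
    invertibleOfNonzero (by exact_mod_cast (Nat.card_pos (α := Γ)).ne')
  have h1 := card_inv_mul_sum_char_mul_char_eq_finrank ρ σ
  have h2 := card_inv_mul_sum_char_mul_char_eq_finrank ρ' σ'
  rw [hρ, hσ, h2] at h1
  exact_mod_cast h1.symm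

/-- **P1a**: finite-dimensional representations of a finite group in characteristic zero with the
same character admit an injective intertwining map. -/
theorem permEq_exists_injective (ρ : Representation k Γ V) (σ : Representation k Γ W)
    (hχ : ρ.character = σ.character) :
    ∃ T : IntertwiningMap ρ σ, Function.Injective T := by
  classical
  have : NeZero (Nat.card Γ : k) := ⟨by exact_mod_cast (Nat.card_pos (α := Γ)).ne'⟩
  -- an intertwining map of maximal rank
  let rk : IntertwiningMap ρ σ → ℕ := fun T => finrank k (LinearMap.range T.toLinearMap)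
  have hbdd : BddAbove (Set.range rk) :=
    ⟨finrank k W, by rintro _ ⟨T, rfl⟩; exact Submodule.finrank_le _⟩
  obtain ⟨T₀, hT₀⟩ : ∃ T₀, rk T₀ = sSup (Set.range rk) :=
    Nat.sSup_mem (Set.range_nonempty rk) hbdd
  have hmax : ∀ T, rk T ≤ rk T₀ := fun T => hT₀ ▸ le_csSup hbdd ⟨T, rfl⟩
  refine ⟨T₀, ?_⟩
  -- complements
  obtain ⟨K', hK'⟩ := exists_isCompl T₀.ker
  obtain ⟨I', hI'⟩ := exists_isCompl T₀.range
  have hcK := permEq_isCompl_toSubmodule hK'
  have hcI := permEq_isCompl_toSubmodule hI'
  -- characters
  have hchar : T₀.ker.toRepresentation.character = I'.toRepresentation.character := by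
    funext g
    have h1 := permEq_char_add ρ T₀.ker K' hcK g
    have h2 := permEq_char_add σ T₀.range I' hcI g
    have h3 := congrFun (permEq_char_compl_ker ρ σ T₀ K' hcK) g
    have h4 := congrFun hχ g
    rw [h1, h2, h3] at h4
    have h5 := add_right_cancel (a := T₀.ker.toRepresentation.character g)
      (b := T₀.range.toRepresentation.character g)
      (c := I'.toRepresentation.character g)
      (by rw [h4, add_comm])
    exact h5
  have hdim : finrank k (IntertwiningMap T₀.ker.toRepresentation I'.toRepresentation) =
      finrank k (IntertwiningMap T₀.ker.toRepresentation T₀.ker.toRepresentation) :=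
    permEq_finrank_intertwining_congr _ _ _ _ rfl hchar.symm
  -- suppose the kernel is non-zero
  by_contra hinj
  have hker : T₀.ker.toSubmodule ≠ ⊥ := by
    intro h
    apply hinj
    show Function.Injective T₀.toLinearMap
    rw [← LinearMap.ker_eq_bot]
    exact h
  obtain ⟨v₀, hv₀, hv₀0⟩ := (Submodule.ne_bot_iff _).mp hker
  have := permEq_finite_intertwining T₀.ker.toRepresentation T₀.ker.toRepresentation
  have := permEq_finite_intertwining T₀.ker.toRepresentation I'.toRepresentation
  have hid : (IntertwiningMap.id T₀.ker.toRepresentation) ≠ 0 := by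
    intro h
    have := congrArg (fun f : IntertwiningMap T₀.ker.toRepresentation T₀.ker.toRepresentation =>
      f ⟨v₀, hv₀⟩) h
    exact hv₀0 (congrArg Subtype.val this)
  have hpos : 0 < finrank k (IntertwiningMap T₀.ker.toRepresentation I'.toRepresentation) := by
    rw [hdim]
    exact Module.finrank_pos_iff_exists_ne_zero.mpr ⟨_, hid⟩
  obtain ⟨S, hS⟩ := Module.finrank_pos_iff_exists_ne_zero.mp hpos
  obtain ⟨a, ha⟩ : ∃ a : ↥T₀.ker.toSubmodule, S a ≠ 0 := by
    by_contra hall
    apply hS
    refine IntertwiningMap.ext (LinearMap.ext fun x => ?_)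
    by_contra hx
    exact hall ⟨x, hx⟩
  -- the perturbed map
  let pr : V →ₗ[k] ↥T₀.ker.toSubmodule := T₀.ker.toSubmodule.projectionOnto K'.toSubmodule hcK
  have hpr : ∀ (g : Γ) (v : V), pr (ρ g v) = T₀.ker.toRepresentation g (pr v) := by
    intro g v
    have hv := Submodule.projection_add_projection_eq_self hcK v
    have e1 : ρ g v = ρ g ((T₀.ker.toSubmodule.projection K'.toSubmodule hcK) v) +
        ρ g ((K'.toSubmodule.projection T₀.ker.toSubmodule hcK.symm) v) := by
      rw [← map_add, hv]
    rw [e1, map_add]
    have e2 : pr (ρ g ((T₀.ker.toSubmodule.projection K'.toSubmodule hcK) v)) =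
        T₀.ker.toRepresentation g (pr v) :=
      Submodule.projectionOnto_apply_left hcK (T₀.ker.toRepresentation g (pr v))
    have e3 : pr (ρ g ((K'.toSubmodule.projection T₀.ker.toSubmodule hcK.symm) v)) = 0 :=
      Submodule.projectionOnto_apply_of_mem_right hcK
        (K'.apply_mem_toSubmodule g (Submodule.projection_apply_mem hcK.symm v))
    rw [e2, e3, add_zero]
  let L : V →ₗ[k] W := T₀.toLinearMap + I'.toSubmodule.subtype ∘ₗ S.toLinearMap ∘ₗ pr
  have hL : ∀ (g : Γ) (v : V), L (ρ g v) = σ g (L v) := by
    intro g v
    show T₀ (ρ g v) + ((S (pr (ρ g v)) : ↥I'.toSubmodule) : W) =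
      σ g (T₀ v + ((S (pr v) : ↥I'.toSubmodule) : W))
    rw [map_add, T₀.isIntertwining ρ σ g v, hpr g v, S.isIntertwining _ _ g (pr v)]
    rfl
  let T₁ : IntertwiningMap ρ σ := L.intertwiningMap_of_isIntertwiningMap ρ σ hL
  have hT₁ : ∀ v, T₁ v = T₀ v + ((S (pr v) : ↥I'.toSubmodule) : W) := fun _ => rfl
  have hlt : LinearMap.range T₀.toLinearMap < LinearMap.range T₁.toLinearMap := by
    refine lt_of_le_of_ne ?_ ?_
    · rintro w ⟨v, rfl⟩
      refine ⟨(K'.toSubmodule.projection T₀.ker.toSubmodule hcK.symm) v, ?_⟩
      show T₁ _ = T₀ v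
      rw [hT₁]
      have e1 : pr ((K'.toSubmodule.projection T₀.ker.toSubmodule hcK.symm) v) = 0 :=
        Submodule.projectionOnto_apply_of_mem_right hcK
          (Submodule.projection_apply_mem hcK.symm v)
      rw [e1, map_zero]
      have hv := Submodule.projection_add_projection_eq_self hcK v
      have e2 : T₀ ((T₀.ker.toSubmodule.projection K'.toSubmodule hcK) v) = 0 :=
        Submodule.projection_apply_mem hcK v
      conv_rhs => rw [← hv, map_add, e2]
      simp
    · intro heq
      have h1 : ((S a : ↥I'.toSubmodule) : W) ∈ LinearMap.range T₁.toLinearMap := by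
        refine ⟨(a : V), ?_⟩
        show T₁ _ = _
        rw [hT₁]
        have e1 : T₀ (a : V) = 0 := a.2
        have e2 : pr (a : V) = a := Submodule.projectionOnto_apply_left hcK a
        rw [e1, e2, zero_add]
      rw [← heq] at h1
      have h2 : ((S a : ↥I'.toSubmodule) : W) ∈ T₀.range.toSubmodule ⊓ I'.toSubmodule :=
        ⟨h1, (S a).2⟩
      rw [hcI.inf_eq_bot] at h2
      exact ha (Subtype.ext ((Submodule.mem_bot k).mp h2))
  have := Submodule.finrank_lt_finrank_of_lt hlt
  exact absurd (hmax T₁) (not_le.mpr this)

end RepInj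

end Fermat.Agent.S56.EC
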