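/-
S56, wall W2-EC, step (B) Brauer induction, piece P1 (helper67): LINEAR EQUIVALENCE of permutation
lattices.

`X`, `Y` finite `Γ`-sets with `#Fix(g, X) = #Fix(g, Y)` for all `g : Γ`.  Then there is an injective
`Γ`-equivariant additive map `T : (X → ℤ) → (Y → ℤ)` whose range has finite index
(`permEq_exists_lattice_map`).  Action on functions: `(g • f) x = f (g⁻¹ • x)`.

Proof: the permutation representations over `ℚ` have the same character, so there is an injective
intertwining map (`permEq_exists_injective`, RepInj.lean); clear denominators.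
-/
import Fermat.Agent.S56.W2.EC.Brauer.RepInj

set_option autoImplicit false
set_option linter.unusedSectionVars false

noncomputable section

namespace Fermat.Agent.S56.EC

open Representation Module

section PermRep

variable (k : Type*) [Field k] (Γ : Type*) [Group Γ] (X : Type*) [MulAction Γ X]

/-- The permutation representation on functions: `(g • f) x = f (g⁻¹ • x)`. -/
def permFunRepr : Representation k Γ (X → k) where
  toFun g := LinearMap.funLeft k k (fun x : X => g⁻¹ • x)
  map_one' := by
    refine LinearMap.ext fun f => funext fun x => ?_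
    simp [LinearMap.funLeft_apply]
  map_mul' g h := by
    refine LinearMap.ext fun f => funext fun x => ?_
    simp [LinearMap.funLeft_apply, mul_smul]

variable {k Γ X}

theorem permFunRepr_apply (g : Γ) (f : X → k) (x : X) :
    permFunRepr k Γ X g f x = f (g⁻¹ • x) := rfl

/-- The character of a permutation representation counts fixed points. -/
theorem permFunRepr_character [Fintype X] [DecidableEq X] (g : Γ) :
    (permFunRepr k Γ X).character g = (Nat.card {x : X // g • x = x} : k) := by
  unfold Representation.character
  rw [LinearMap.trace_eq_matrix_trace k (Pi.basisFun k X), LinearMap.toMatrix_eq_toMatrix',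
    Matrix.trace]
  have h1 : ∀ x : X, Matrix.diag (LinearMap.toMatrix' (permFunRepr k Γ X g)) x =
      if g • x = x then 1 else 0 := by
    intro x
    rw [Matrix.diag_apply, LinearMap.toMatrix'_apply, permFunRepr_apply]
    by_cases hx : g • x = x
    · have : g⁻¹ • x = x := by rw [inv_smul_eq_iff, hx]
      rw [if_pos hx, this, Pi.single_eq_same]
    · have : g⁻¹ • x ≠ x := fun h => hx (by rw [inv_smul_eq_iff] at h; exact h.symm)
      rw [if_neg hx, Pi.single_eq_of_ne this]
  rw [Finset.sum_congr rfl (fun x _ => h1 x), Finset.sum_boole, Nat.card_eq_fintype_card,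
    Fintype.card_subtype]

end PermRep

section Denominators

/-- A common denominator for a finite family of rational numbers. -/
theorem permEq_exists_int_multiple {ι : Type*} [Finite ι] (q : ι → ℚ) :
    ∃ b : ℤ, b ≠ 0 ∧ ∀ i, ∃ n : ℤ, (n : ℚ) = b * q i := by
  classical
  cases nonempty_fintype ι
  refine ⟨∏ i, ((q i).den : ℤ), ?_, fun i => ?_⟩
  · exact Finset.prod_ne_zero_iff.mpr fun i _ => by exact_mod_cast (q i).den_ne_zero
  · refine ⟨(∏ j ∈ Finset.univ.erase i, ((q j).den : ℤ)) * (q i).num, ?_⟩
    rw [← Finset.mul_prod_erase Finset.univ (fun j => ((q j).den : ℤ)) (Finset.mem_univ i)]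
    push_cast
    have h := Rat.mul_den_eq_num (q i)
    rw [← h]
    ring

end Denominators

section Lattice

variable {Γ X Y : Type} [Group Γ] [Finite Γ] [Finite X] [Finite Y] [MulAction Γ X]
  [MulAction Γ Y]

/-- **P1** linear equivalence of permutation lattices: if `X` and `Y` have the same number of
fixed points under every `g : Γ`, there is an injective equivariant additive map
`(X → ℤ) → (Y → ℤ)` whose range has finite index. -/
theorem permEq_exists_lattice_map
    (h : ∀ g : Γ, Nat.card {x : X // g • x = x} = Nat.card {y : Y // g • y = y}) :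
    ∃ T : (X → ℤ) →+ (Y → ℤ), Function.Injective T ∧
      (∀ (g : Γ) (f : X → ℤ), T (fun x => f (g⁻¹ • x)) = fun y => T f (g⁻¹ • y)) ∧
      T.range.index ≠ 0 := by
  classical
  cases nonempty_fintype Γ
  cases nonempty_fintype X
  cases nonempty_fintype Y
  -- the injective intertwining map over `ℚ`
  have hχ : (permFunRepr ℚ Γ X).character = (permFunRepr ℚ Γ Y).character := by
    funext g
    rw [permFunRepr_character, permFunRepr_character, h g]
  obtain ⟨T, hT⟩ := permEq_exists_injective (permFunRepr ℚ Γ X) (permFunRepr ℚ Γ Y) hχ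
  -- it is bijective
  have hcard : Fintype.card X = Fintype.card Y := by
    have := h 1
    simp only [one_smul, Nat.card_eq_fintype_card] at this
    simpa [Fintype.card_subtype] using this
  have hsurj : Function.Surjective T := by
    have hfr : finrank ℚ (X → ℚ) = finrank ℚ (Y → ℚ) := by
      rw [Module.finrank_pi, Module.finrank_pi, hcard]
    exact (LinearMap.injective_iff_surjective_of_finrank_eq_finrank hfr
      (f := T.toLinearMap)).mp hT
  -- the matrix of `T` and a common denominator
  let M : Matrix Y X ℚ := LinearMap.toMatrix' T.toLinearMap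
  have hM : ∀ (v : X → ℚ) (y : Y), T v y = ∑ x, M y x * v x := by
    intro v y
    have := congrFun (LinearMap.toMatrix'_mulVec T.toLinearMap v) y
    rw [← T.toLinearMap_apply, ← this]
    rfl
  obtain ⟨b, hb, hbM⟩ := permEq_exists_int_multiple (fun i : Y × X => M i.1 i.2)
  choose N hN using hbM
  -- the integral map
  let TZ : (X → ℤ) →+ (Y → ℤ) :=
    { toFun := fun f y => ∑ x, N (y, x) * f x
      map_zero' := by
        funext y
        simp
      map_add' := by
        intro f f'
        funext y
        simp only [Pi.add_apply, mul_add, Finset.sum_add_distrib] }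
  have hTZ : ∀ (f : X → ℤ) (y : Y), ((TZ f y : ℤ) : ℚ) = b * T (fun x => (f x : ℚ)) y := by
    intro f y
    show ((∑ x, N (y, x) * f x : ℤ) : ℚ) = _
    rw [hM, Finset.mul_sum]
    push_cast
    refine Finset.sum_congr rfl fun x _ => ?_
    rw [hN (y, x)]
    ring
  have hbQ : (b : ℚ) ≠ 0 := by exact_mod_cast hb
  refine ⟨TZ, ?_, ?_, ?_⟩
  · -- injective
    rw [injective_iff_map_eq_zero]
    intro f hf
    have h1 : T (fun x => (f x : ℚ)) = 0 := by
      funext y
      have := hTZ f y
      rw [hf] at this
      simp only [Pi.zero_apply, Int.cast_zero] at this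
      rcases mul_eq_zero.mp this.symm with h0 | h0
      · exact absurd h0 hbQ
      · exact h0
    have h2 : (fun x => (f x : ℚ)) = 0 := by
      have := hT (a₁ := fun x => (f x : ℚ)) (a₂ := 0)
      rw [map_zero] at this
      exact this h1
    funext x
    have := congrFun h2 x
    simpa using this
  · -- equivariant
    intro g f
    funext y
    have e1 := hTZ (fun x => f (g⁻¹ • x)) y
    have e2 := hTZ f (g⁻¹ • y)
    have e3 : T (fun x => ((f (g⁻¹ • x) : ℤ) : ℚ)) y = T (fun x => (f x : ℚ)) (g⁻¹ • y) := by
      have := congrFun (T.isIntertwining _ _ g (fun x => (f x : ℚ))) y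
      exact this
    rw [e3, ← e2] at e1
    exact_mod_cast e1
  · -- finite index
    rw [AddSubgroup.index_ne_zero_iff_finite]
    have : Module.Finite ℤ ((Y → ℤ) ⧸ TZ.range) :=
      Module.Finite.of_surjective (QuotientAddGroup.mk' TZ.range).toIntLinearMap
        (QuotientAddGroup.mk'_surjective _)
    refine Module.finite_of_fg_torsion _ ?_
    intro z
    obtain ⟨f, rfl⟩ := QuotientAddGroup.mk'_surjective TZ.range z
    obtain ⟨v, hv⟩ := hsurj (fun y => (f y : ℚ))
    obtain ⟨c, hc, hcv⟩ := permEq_exists_int_multiple v
    choose w hw using hcv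
    have hbc : b * c ≠ 0 := mul_ne_zero hb hc
    refine ⟨⟨b * c, mem_nonZeroDivisors_of_ne_zero hbc⟩, ?_⟩
    show (b * c) • (QuotientAddGroup.mk' TZ.range f) = 0
    rw [← map_zsmul, QuotientAddGroup.mk'_apply, QuotientAddGroup.eq_zero_iff]
    refine ⟨w, ?_⟩
    funext y
    have e1 := hTZ w y
    have e2 : (fun x => ((w x : ℤ) : ℚ)) = (c : ℚ) • v := by
      funext x
      rw [hw x]
      simp
    rw [e2, map_smul, hv] at e1
    have e3 : ((TZ w y : ℤ) : ℚ) = (((b * c) • f) y : ℤ) := by
      rw [e1]
      simp only [Pi.smul_apply, smul_eq_mul]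
      push_cast
      ring
    exact_mod_cast e3

end Lattice

end Fermat.Agent.S56.EC
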